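import Fermat.Agent.S15.A.Wp.Basic

/-!
# S15 / A / Wp : the addition theorem for `℘` (Euler's proof: no pole analysis)

`A(z,w) = -℘z - ℘w + ((℘'z - ℘'w)/(℘z - ℘w))²/4` satisfies `(∂_z - ∂_w) A = 0` by pure algebra
(`℘'' = 6℘² - g₂/2`, `℘'² = 4℘³ - g₂℘ - g₃`).  Hence `t ↦ A(s/2 + t, s/2 - t)` is locally constant on the set `U s` where it is defined; `U s` is the complement of a
countable set, hence connected; and `A(s - w, w) → ℘ s` for `w → 0`.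
-/

set_option autoImplicit false

open Filter Topology PeriodPair

namespace Fermat.Agent.S15.A.Wp

noncomputable section

variable (L : PeriodPair)

/-- Euler's expression. -/
def addF (z w : ℂ) : ℂ :=
  -℘[L] z - ℘[L] w + ((℘'[L] z - ℘'[L] w) / (℘[L] z - ℘[L] w)) ^ 2 / 4

/-- the set of `t` where `A(s/2+t, s/2-t)` is defined -/
def goodSet (s : ℂ) : Set ℂ :=
  {t | s / 2 + t ∉ L.lattice ∧ s / 2 - t ∉ L.lattice ∧ ℘[L] (s / 2 + t) ≠ ℘[L] (s / 2 - t)}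

/-- pure algebra: with `d₁² = 4p₁³ - g₂p₁ - g₃`, `d₂² = 4p₂³ - g₂p₂ - g₃`, `p₁ ≠ p₂`, `R = (d₁-d₂)/(p₁-p₂)`:
`((6p₁²-g₂/2) + (6p₂²-g₂/2)) (p₁-p₂) - (d₁-d₂)(d₁+d₂) = 2 (p₁-p₂)³`. -/
theorem alg_slope {g₂ g₃ p₁ d₁ p₂ d₂ : ℂ} (h₁ : d₁ ^ 2 = 4 * p₁ ^ 3 - g₂ * p₁ - g₃)
    (h₂ : d₂ ^ 2 = 4 * p₂ ^ 3 - g₂ * p₂ - g₃) :
    ((6 * p₁ ^ 2 - g₂ / 2) + (6 * p₂ ^ 2 - g₂ / 2)) * (p₁ - p₂) - (d₁ - d₂) * (d₁ + d₂)
      = 2 * (p₁ - p₂) ^ 3 := by
  linear_combination (-1 : ℂ) * h₁ + h₂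

/-- the derivative of `t ↦ A(s/2+t, s/2-t)` vanishes on `goodSet`.
Proof: chain rule with `hasDerivAt_wp`, `hasDerivAt_wp'` (`d/dt ℘(s/2+t) = ℘'`, `d/dt ℘(s/2-t) = -℘'`), `HasDerivAt.div`, `.pow`; the resulting expression is `0` by `alg_slope`
(`d/dt R = 2(p₁-p₂)`, so `d/dt A = -d₁ + d₂ + R (p₁-p₂) = 0`), `field_simp`. -/
theorem hasDerivAt_addF_zero (s t : ℂ) (ht : t ∈ goodSet L s) :
    HasDerivAt (fun t : ℂ => addF L (s / 2 + t) (s / 2 - t)) 0 t := by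
  obtain ⟨h1, h2, hne⟩ := ht
  have hu : HasDerivAt (fun t : ℂ => s / 2 + t) 1 t := (hasDerivAt_id t).const_add _
  have hv : HasDerivAt (fun t : ℂ => s / 2 - t) (-1) t := (hasDerivAt_id t).const_sub _
  have hp1 : HasDerivAt (fun t : ℂ => ℘[L] (s / 2 + t)) (℘'[L] (s / 2 + t) * 1) t :=
    (hasDerivAt_wp L _ h1).comp t hu
  have hp2 : HasDerivAt (fun t : ℂ => ℘[L] (s / 2 - t)) (℘'[L] (s / 2 - t) * (-1)) t :=
    (hasDerivAt_wp L _ h2).comp t hv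
  have hd1 : HasDerivAt (fun t : ℂ => ℘'[L] (s / 2 + t))
      ((6 * ℘[L] (s / 2 + t) ^ 2 - L.g₂ / 2) * 1) t := (hasDerivAt_wp' L _ h1).comp t hu
  have hd2 : HasDerivAt (fun t : ℂ => ℘'[L] (s / 2 - t))
      ((6 * ℘[L] (s / 2 - t) ^ 2 - L.g₂ / 2) * (-1)) t := (hasDerivAt_wp' L _ h2).comp t hv
  have hp0 : ℘[L] (s / 2 + t) - ℘[L] (s / 2 - t) ≠ 0 := sub_ne_zero.mpr hne
  have hR := (hd1.sub hd2).div (hp1.sub hp2) hp0
  have hA := (hp1.neg.sub hp2).add ((hR.pow 2).div_const 4)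
  have halg := alg_slope (L.derivWeierstrassP_sq _ h1) (L.derivWeierstrassP_sq _ h2)
  refine hA.congr_deriv ?_
  clear hA hR hd1 hd2 hp1 hp2
  simp only [Pi.sub_apply, Pi.div_apply]
  generalize ℘[L] (s / 2 + t) = p₁ at *
  generalize ℘[L] (s / 2 - t) = p₂ at *
  generalize ℘'[L] (s / 2 + t) = d₁ at *
  generalize ℘'[L] (s / 2 - t) = d₂ at *
  have hnum : ((6 * p₁ ^ 2 - L.g₂ / 2) * 1 - (6 * p₂ ^ 2 - L.g₂ / 2) * -1) * (p₁ - p₂) -
      (d₁ - d₂) * (d₁ * 1 - d₂ * -1) = 2 * (p₁ - p₂) ^ 3 := by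
    rw [← halg]; ring
  rw [hnum]
  clear hnum halg hne
  generalize p₁ - p₂ = P at *
  have h3 : 2 * P ^ 3 / P ^ 2 = 2 * P := by field_simp
  rw [h3, show (2 - 1 : ℕ) = 1 from rfl, pow_one, Nat.cast_ofNat]
  field_simp
  ring

theorem isOpen_goodSet (s : ℂ) : IsOpen (goodSet L s) := by
  rw [isOpen_iff_mem_nhds]
  rintro t ⟨h1, h2, hne⟩
  have hu : ContinuousAt (fun t : ℂ => s / 2 + t) t := by fun_prop
  have hv : ContinuousAt (fun t : ℂ => s / 2 - t) t := by fun_prop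
  have ho : IsOpen ((L.lattice : Set ℂ)ᶜ) := L.isClosed_lattice.isOpen_compl
  have e1 : ∀ᶠ t' in 𝓝 t, s / 2 + t' ∉ L.lattice := hu.eventually_mem (ho.mem_nhds h1)
  have e2 : ∀ᶠ t' in 𝓝 t, s / 2 - t' ∉ L.lattice := hv.eventually_mem (ho.mem_nhds h2)
  have c1 : ContinuousAt (fun t : ℂ => ℘[L] (s / 2 + t)) t :=
    ContinuousAt.comp (f := fun t : ℂ => s / 2 + t) (g := ℘[L])
      (hasDerivAt_wp L _ h1).continuousAt hu
  have c2 : ContinuousAt (fun t : ℂ => ℘[L] (s / 2 - t)) t :=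
    ContinuousAt.comp (f := fun t : ℂ => s / 2 - t) (g := ℘[L])
      (hasDerivAt_wp L _ h2).continuousAt hv
  have e3 : ∀ᶠ t' in 𝓝 t, ℘[L] (s / 2 + t') ≠ ℘[L] (s / 2 - t') := by
    filter_upwards [(c1.sub c2).eventually_ne (sub_ne_zero.mpr hne)] with t' ht'
    exact sub_ne_zero.mp ht'
  filter_upwards [e1, e2, e3] with t' a b c using ⟨a, b, c⟩

/-- (task A-Add-Count) `s/2 - w ∈ goodSet L s` for small `w ≠ 0`. -/
theorem AddCount_eventually_mem_goodSet (s : ℂ) (hs : s ∉ L.lattice) :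
    ∀ᶠ w in 𝓝[≠] (0 : ℂ), s / 2 - w ∈ goodSet L s := by
  have hopen : IsOpen ((L.lattice : Set ℂ)ᶜ) := L.isClosed_lattice.isOpen_compl
  have hcont : ContinuousAt (fun w : ℂ => s - w) 0 := by fun_prop
  have h1 : ∀ᶠ w in 𝓝 (0 : ℂ), s - w ∈ (L.lattice : Set ℂ)ᶜ :=
    hcont.eventually_mem (hopen.mem_nhds (by simpa using hs))
  have h1' : ∀ᶠ w in 𝓝[≠] (0 : ℂ), s - w ∈ (L.lattice : Set ℂ)ᶜ :=
    h1.filter_mono nhdsWithin_le_nhds
  have h2 : ∀ᶠ w in 𝓝[≠] (0 : ℂ), w ∉ L.lattice := by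
    have h := L.compl_lattice_sdiff_singleton_mem_nhds 0
    rw [eventually_nhdsWithin_iff]
    filter_upwards [h] with w hw hw0 hmem
    exact hw ⟨hmem, hw0⟩
  have h3 : Tendsto (fun w : ℂ => ‖℘[L] (s - w)‖) (𝓝[≠] 0) (𝓝 ‖℘[L] s‖) := by
    have hc : ContinuousAt ℘[L] s := (hasDerivAt_wp L s hs).continuousAt
    have hc' : ContinuousAt (fun w : ℂ => ‖℘[L] (s - w)‖) 0 := by
      apply ContinuousAt.norm
      exact ContinuousAt.comp (g := ℘[L]) (f := fun w : ℂ => s - w) (by simpa using hc) hcont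
    have h := hc'.tendsto
    simp only [sub_zero] at h
    exact h.mono_left nhdsWithin_le_nhds
  have h4 := (norm_wp_tendsto_atTop L).eventually_gt_atTop (‖℘[L] s‖ + 1)
  have h5 := h3.eventually_lt_const (show ‖℘[L] s‖ < ‖℘[L] s‖ + 1 by linarith)
  filter_upwards [h1', h2, h4, h5] with w a b c d
  have e1 : s / 2 + (s / 2 - w) = s - w := by ring
  have e2 : s / 2 - (s / 2 - w) = w := by ring
  refine ⟨?_, ?_, ?_⟩
  · rw [e1]; exact a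
  · rw [e2]; exact b
  · rw [e1, e2]
    intro h
    rw [h] at d
    linarith

/-- For `s ∉ Λ` the complement of `goodSet L s` is countable.
Proof: it is contained in `(Λ - s/2) ∪ (s/2 - Λ) ∪ {t ∈ U | g t = 0}` with `U = ((Λ - s/2) ∪ (s/2 - Λ))ᶜ` (open, preconnected by `isPreconnected_compl_of_countable`) and
`g t = ℘(s/2+t) - ℘(s/2-t)` analytic on `U`; `g ≢ 0` on `U`: for `t → s/2`, `℘(s/2 - t) → ∞` while `℘(s/2+t) → ℘ s` (`s ∉ Λ`).  `countable_zeros`. -/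
theorem countable_compl_goodSet (s : ℂ) (hs : s ∉ L.lattice) : (goodSet L s)ᶜ.Countable := by
  set C : Set ℂ := {t | s / 2 + t ∈ L.lattice} ∪ {t | s / 2 - t ∈ L.lattice} with hC
  have hCc : C.Countable := by
    refine Set.Countable.union ?_ ?_
    · exact (countable_lattice L).preimage_of_injOn (f := fun t : ℂ => s / 2 + t)
        (fun a _ b _ h => add_left_cancel h)
    · exact (countable_lattice L).preimage_of_injOn (f := fun t : ℂ => s / 2 - t)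
        (fun a _ b _ h => sub_right_injective h)
  have hCclosed : IsClosed C :=
    (L.isClosed_lattice.preimage (f := fun t : ℂ => s / 2 + t) (by fun_prop)).union
      (L.isClosed_lattice.preimage (f := fun t : ℂ => s / 2 - t) (by fun_prop))
  have hU : IsOpen Cᶜ := hCclosed.isOpen_compl
  have hpc : IsPreconnected Cᶜ := isPreconnected_compl_of_countable hCc
  have hg : AnalyticOnNhd ℂ (fun t : ℂ => ℘[L] (s / 2 + t) - ℘[L] (s / 2 - t)) Cᶜ := by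
    intro t ht
    have h1 : s / 2 + t ∉ L.lattice := fun h => ht (Or.inl h)
    have h2 : s / 2 - t ∉ L.lattice := fun h => ht (Or.inr h)
    have a1 : AnalyticAt ℂ ℘[L] (s / 2 + t) := L.analyticOnNhd_weierstrassP _ h1
    have a2 : AnalyticAt ℂ ℘[L] (s / 2 - t) := L.analyticOnNhd_weierstrassP _ h2
    exact (AnalyticAt.fun_comp (f := fun t : ℂ => s / 2 + t) a1 (by fun_prop)).sub
      (AnalyticAt.fun_comp (f := fun t : ℂ => s / 2 - t) a2 (by fun_prop))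
  obtain ⟨w, hw⟩ := (AddCount_eventually_mem_goodSet L s hs).exists
  have hz₀ : s / 2 - w ∈ Cᶜ := fun h => h.elim hw.1 hw.2.1
  have h0 : (fun t : ℂ => ℘[L] (s / 2 + t) - ℘[L] (s / 2 - t)) (s / 2 - w) ≠ 0 :=
    sub_ne_zero.mpr hw.2.2
  have hz := countable_zeros hU hpc hg hz₀ h0
  refine (hCc.union hz).mono ?_
  intro t ht
  by_cases htC : t ∈ C
  · exact Or.inl htC
  · refine Or.inr ⟨htC, ?_⟩
    by_contra hne
    exact ht ⟨fun h => htC (Or.inl h), fun h => htC (Or.inr h), sub_ne_zero.mp hne⟩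

omit L in
/-- the algebraic identity behind `tendsto_addF`. -/
theorem AddLim_alg (a b ρ ρ' w : ℂ) (hw : w ≠ 0) (hD : (a - ρ) * w ^ 2 - 1 ≠ 0) :
    -a - (1 / w ^ 2 + ρ) + ((b - (-2 / w ^ 3 + ρ')) / (a - (1 / w ^ 2 + ρ))) ^ 2 / 4 =
      -a - ρ + ((b - ρ') * w + (b - ρ') ^ 2 * w ^ 4 / 4 + 2 * (a - ρ) - (a - ρ) ^ 2 * w ^ 2) /
        ((a - ρ) * w ^ 2 - 1) ^ 2 := by
  have e1 : a - (1 / w ^ 2 + ρ) = ((a - ρ) * w ^ 2 - 1) / w ^ 2 := by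
    field_simp
    ring
  have e2 : b - (-2 / w ^ 3 + ρ') = ((b - ρ') * w ^ 3 + 2) / w ^ 3 := by
    field_simp
    ring
  rw [e1, e2]
  generalize a - ρ = α at hD ⊢
  generalize b - ρ' = β
  obtain ⟨D, hDdef⟩ : ∃ D, D = α * w ^ 2 - 1 := ⟨_, rfl⟩
  rw [← hDdef] at hD ⊢
  field_simp
  rw [hDdef]
  ring

/-- `A(s - w, w) → ℘ s` as `w → 0` (`s ∉ Λ`).
Proof: write `℘ w = w⁻² + ρ`, `℘' w = -2w⁻³ + ρ'`, `ρ, ρ' → 0` (`tendsto_wp_sub`, `tendsto_wp'_add`), `a = ℘(s-w) → ℘ s`, `b = ℘'(s-w) → ℘' s`.  For `w ≠ 0`, `(a-ρ)w² ≠ 1`: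
`A = -a - ρ + [(b-ρ')w + (b-ρ')²w⁴/4 + 2(a-ρ) - (a-ρ)²w²] / ((a-ρ)w² - 1)²` (`field_simp; ring`), which tends to `-℘ s + 2 ℘ s`. -/
theorem tendsto_addF (s : ℂ) (hs : s ∉ L.lattice) :
    Tendsto (fun w : ℂ => addF L (s - w) w) (𝓝[≠] (0 : ℂ)) (𝓝 (℘[L] s)) := by
  have hw : Tendsto (fun w : ℂ => w) (𝓝[≠] (0 : ℂ)) (𝓝 0) :=
    tendsto_nhdsWithin_of_tendsto_nhds tendsto_id
  have hsw : Tendsto (fun w : ℂ => s - w) (𝓝[≠] (0 : ℂ)) (𝓝 s) := by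
    have := (tendsto_const_nhds (x := s)).sub hw
    simpa using this
  have ha : Tendsto (fun w : ℂ => ℘[L] (s - w)) (𝓝[≠] (0 : ℂ)) (𝓝 (℘[L] s)) :=
    (hasDerivAt_wp L s hs).continuousAt.tendsto.comp hsw
  have hb : Tendsto (fun w : ℂ => ℘'[L] (s - w)) (𝓝[≠] (0 : ℂ)) (𝓝 (℘'[L] s)) :=
    (hasDerivAt_wp' L s hs).continuousAt.tendsto.comp hsw
  have hρ := tendsto_wp_sub L
  have hρ' := tendsto_wp'_add L
  have hα : Tendsto (fun w : ℂ => ℘[L] (s - w) - (℘[L] w - 1 / w ^ 2)) (𝓝[≠] (0 : ℂ))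
      (𝓝 (℘[L] s)) := by
    simpa using ha.sub hρ
  have hβ : Tendsto (fun w : ℂ => ℘'[L] (s - w) - (℘'[L] w + 2 / w ^ 3)) (𝓝[≠] (0 : ℂ))
      (𝓝 (℘'[L] s)) := by
    simpa using hb.sub hρ'
  have hD : Tendsto (fun w : ℂ => (℘[L] (s - w) - (℘[L] w - 1 / w ^ 2)) * w ^ 2 - 1)
      (𝓝[≠] (0 : ℂ)) (𝓝 (-1)) := by
    have := (hα.mul (hw.pow 2)).sub_const 1
    simpa using this
  have hnum := (((hβ.mul hw).add (((hβ.pow 2).mul (hw.pow 4)).div_const 4)).add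
    (hα.const_mul 2)).sub ((hα.pow 2).mul (hw.pow 2))
  have hG := ((ha.neg).sub hρ).add (hnum.div (hD.pow 2) (by norm_num))
  have hval : -℘[L] s - 0 + (℘'[L] s * 0 + ℘'[L] s ^ 2 * 0 ^ 4 / 4 + 2 * ℘[L] s -
      ℘[L] s ^ 2 * 0 ^ 2) / (-1) ^ 2 = ℘[L] s := by ring
  rw [hval] at hG
  refine hG.congr' ?_
  filter_upwards [self_mem_nhdsWithin, hD.eventually_ne (by norm_num : (-1 : ℂ) ≠ 0)] with w hw0 hD0
  have key := AddLim_alg (℘[L] (s - w)) (℘'[L] (s - w)) (℘[L] w - 1 / w ^ 2)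
    (℘'[L] w + 2 / w ^ 3) w hw0 hD0
  have e1 : 1 / w ^ 2 + (℘[L] w - 1 / w ^ 2) = ℘[L] w := by ring
  have e2 : -2 / w ^ 3 + (℘'[L] w + 2 / w ^ 3) = ℘'[L] w := by ring
  rw [e1, e2] at key
  exact key.symm

/-- `s/2 - w ∈ goodSet L s` for small `w ≠ 0`. -/
theorem eventually_mem_goodSet (s : ℂ) (hs : s ∉ L.lattice) :
    ∀ᶠ w in 𝓝[≠] (0 : ℂ), s / 2 - w ∈ goodSet L s :=
  AddCount_eventually_mem_goodSet L s hs

/-- `t ↦ A(s/2+t, s/2-t)` is constant on `goodSet` (open + preconnected + derivative `0`: `IsOpen.is_const_of_deriv_eq_zero` or `IsPreconnected`-version `..exists_eq_const_of_..`). -/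
theorem addF_const (s : ℂ) (hs : s ∉ L.lattice) {t t' : ℂ} (ht : t ∈ goodSet L s)
    (ht' : t' ∈ goodSet L s) :
    addF L (s / 2 + t) (s / 2 - t) = addF L (s / 2 + t') (s / 2 - t') := by
  have hpc : IsPreconnected (goodSet L s) := by
    have := isPreconnected_compl_of_countable (countable_compl_goodSet L s hs)
    rwa [compl_compl] at this
  exact (isOpen_goodSet L s).is_const_of_deriv_eq_zero hpc
    (f := fun t : ℂ => addF L (s / 2 + t) (s / 2 - t))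
    (fun x hx => (hasDerivAt_addF_zero L s x hx).differentiableAt.differentiableWithinAt)
    (fun x hx => (hasDerivAt_addF_zero L s x hx).deriv) ht ht'

/-- **Addition theorem (x-coordinate).** -/
theorem wp_add {z w : ℂ} (hz : z ∉ L.lattice) (hw : w ∉ L.lattice) (hzw : z + w ∉ L.lattice)
    (hne : ℘[L] z ≠ ℘[L] w) : ℘[L] (z + w) = addF L z w := by
  have e1 : (z + w) / 2 + (z - w) / 2 = z := by ring
  have e2 : (z + w) / 2 - (z - w) / 2 = w := by ring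
  have ht : (z - w) / 2 ∈ goodSet L (z + w) := by
    refine ⟨?_, ?_, ?_⟩
    · rwa [e1]
    · rwa [e2]
    · rwa [e1, e2]
  have hev : ∀ᶠ u in 𝓝[≠] (0 : ℂ), addF L (z + w - u) u = addF L z w := by
    filter_upwards [eventually_mem_goodSet L (z + w) hzw] with u hu
    have h := addF_const L (z + w) hzw hu ht
    have e3 : (z + w) / 2 + ((z + w) / 2 - u) = z + w - u := by ring
    have e4 : (z + w) / 2 - ((z + w) / 2 - u) = u := by ring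
    rwa [e1, e2, e3, e4] at h
  have h1 : Tendsto (fun u : ℂ => addF L (z + w - u) u) (𝓝[≠] (0 : ℂ)) (𝓝 (addF L z w)) :=
    (tendsto_congr' hev).2 tendsto_const_nhds
  exact tendsto_nhds_unique (tendsto_addF L (z + w) hzw) h1

/-- pure algebra for the `y`-coordinate: with `R = (d₁-d₂)/(p₁-p₂)`, `x₃ = -p₁-p₂+R²/4`:
`-d₁ + R/2 * ((6p₁²-g₂/2)(p₁-p₂) - (d₁-d₂)d₁)/(p₁-p₂)² = -(R (x₃ - p₁) + d₁)`. -/
theorem alg_y {g₂ g₃ p₁ d₁ p₂ d₂ : ℂ} (h₁ : d₁ ^ 2 = 4 * p₁ ^ 3 - g₂ * p₁ - g₃)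
    (h₂ : d₂ ^ 2 = 4 * p₂ ^ 3 - g₂ * p₂ - g₃) (hne : p₁ ≠ p₂) :
    -d₁ + (d₁ - d₂) / (p₁ - p₂) / 2 *
        (((6 * p₁ ^ 2 - g₂ / 2) * (p₁ - p₂) - (d₁ - d₂) * d₁) / (p₁ - p₂) ^ 2)
      = -((d₁ - d₂) / (p₁ - p₂) * ((-p₁ - p₂ + ((d₁ - d₂) / (p₁ - p₂)) ^ 2 / 4) - p₁) + d₁) := by
  have hD : p₁ - p₂ ≠ 0 := sub_ne_zero.2 hne
  have key : (12 * p₁ ^ 2 - g₂) * (p₁ - p₂) - 2 * (d₁ - d₂) * d₁ + (d₁ - d₂) ^ 2
      - 4 * (p₁ - p₂) ^ 2 * (2 * p₁ + p₂) = 0 := by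
    linear_combination (-1 : ℂ) * h₁ + h₂
  have e : (-d₁ + (d₁ - d₂) / (p₁ - p₂) / 2 *
        (((6 * p₁ ^ 2 - g₂ / 2) * (p₁ - p₂) - (d₁ - d₂) * d₁) / (p₁ - p₂) ^ 2))
      - -((d₁ - d₂) / (p₁ - p₂) * ((-p₁ - p₂ + ((d₁ - d₂) / (p₁ - p₂)) ^ 2 / 4) - p₁) + d₁)
      = (d₁ - d₂) * ((12 * p₁ ^ 2 - g₂) * (p₁ - p₂) - 2 * (d₁ - d₂) * d₁ + (d₁ - d₂) ^ 2
      - 4 * (p₁ - p₂) ^ 2 * (2 * p₁ + p₂)) / (4 * (p₁ - p₂) ^ 3) := by
    field_simp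
    ring
  rw [key, mul_zero, zero_div] at e
  exact sub_eq_zero.1 e

/-- **Addition theorem (y-coordinate).**  Proof: the hypotheses are open conditions in `z`, so `℘(z'+w) = A(z',w)` for `z'` near `z`; differentiate in `z'`
(`hasDerivAt_wp`, `hasDerivAt_wp'`), uniqueness of derivatives, `alg_y`. -/
theorem wp'_add {z w : ℂ} (hz : z ∉ L.lattice) (hw : w ∉ L.lattice) (hzw : z + w ∉ L.lattice)
    (hne : ℘[L] z ≠ ℘[L] w) :
    ℘'[L] (z + w) =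
      -((℘'[L] z - ℘'[L] w) / (℘[L] z - ℘[L] w) * (℘[L] (z + w) - ℘[L] z) + ℘'[L] z) := by
  have hD : ℘[L] z - ℘[L] w ≠ 0 := sub_ne_zero.2 hne
  have hop : IsOpen ((L.lattice : Set ℂ)ᶜ) := L.isClosed_lattice.isOpen_compl
  -- the addition theorem holds near `z`
  have hev : (fun z' : ℂ => ℘[L] (z' + w)) =ᶠ[𝓝 z] fun z' => addF L z' w := by
    have h1 : ∀ᶠ z' in 𝓝 z, z' ∉ L.lattice := hop.mem_nhds hz
    have h2 : ∀ᶠ z' in 𝓝 z, z' + w ∉ L.lattice :=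
      (continuous_id.add continuous_const).continuousAt.eventually_mem (hop.mem_nhds hzw)
    have h3 : ∀ᶠ z' in 𝓝 z, ℘[L] z' ≠ ℘[L] w :=
      (hasDerivAt_wp L z hz).continuousAt.eventually_ne hne
    filter_upwards [h1, h2, h3] with z' a1 a2 a3
    exact wp_add L a1 hw a2 a3
  have hl : HasDerivAt (fun z' : ℂ => ℘[L] (z' + w)) (℘'[L] (z + w)) z :=
    (hasDerivAt_wp L (z + w) hzw).comp_add_const z w
  have hp := hasDerivAt_wp L z hz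
  have hp' := hasDerivAt_wp' L z hz
  have hR : HasDerivAt (fun z' : ℂ => (℘'[L] z' - ℘'[L] w) / (℘[L] z' - ℘[L] w))
      (((6 * ℘[L] z ^ 2 - L.g₂ / 2) * (℘[L] z - ℘[L] w) - (℘'[L] z - ℘'[L] w) * ℘'[L] z)
        / (℘[L] z - ℘[L] w) ^ 2) z :=
    (hp'.sub_const _).div (hp.sub_const _) hD
  have hr : HasDerivAt (fun z' : ℂ => addF L z' w)
      (-℘'[L] z + ((2 : ℕ) : ℂ) * ((℘'[L] z - ℘'[L] w) / (℘[L] z - ℘[L] w)) ^ (2 - 1) *
        (((6 * ℘[L] z ^ 2 - L.g₂ / 2) * (℘[L] z - ℘[L] w) - (℘'[L] z - ℘'[L] w) * ℘'[L] z)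
        / (℘[L] z - ℘[L] w) ^ 2) / 4) z :=
    ((hp.neg.sub_const _).add ((hR.pow 2).div_const 4))
  have huniq := hl.unique (hr.congr_of_eventuallyEq hev)
  rw [huniq, wp_add L hz hw hzw hne, addF,
    ← alg_y (L.derivWeierstrassP_sq z hz) (L.derivWeierstrassP_sq w hw) hne]
  norm_num
  ring

/-- For `z + w ∉ Λ` the function `t ↦ ℘(z+t) - ℘(w-t)` does not vanish identically near `0`: there are arbitrarily small `t ≠ 0` (indeed all small `t ≠ 0`) with `℘(z+t) ≠ ℘(w-t)`.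
Proof: `countable_compl_goodSet L (z+w)` (substitute `t ↦ (z-w)/2 + t`): a punctured neighbourhood is uncountable; or isolated zeros. Only `∃ᶠ` is needed. -/
theorem frequently_wp_ne {z w : ℂ} (hzw : z + w ∉ L.lattice) :
    ∃ᶠ t in 𝓝[≠] (0 : ℂ), ℘[L] (z + t) ≠ ℘[L] (w - t) := by
  have hc := countable_compl_goodSet L (z + w) hzw
  set S : Set ℂ := {t | (z - w) / 2 + t ∈ (goodSet L (z + w))ᶜ} ∪ {0} with hSdef
  have hS : S.Countable :=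
    (hc.preimage_of_injOn (f := fun t : ℂ => (z - w) / 2 + t)
      (fun a _ b _ h => add_left_cancel h)).union (Set.countable_singleton 0)
  have hd : Dense Sᶜ := hS.dense_compl ℂ
  rw [frequently_nhdsWithin_iff]
  have hf : ∃ᶠ t in 𝓝 (0 : ℂ), t ∈ Sᶜ := mem_closure_iff_frequently.mp (hd 0)
  refine hf.mono fun t ht => ?_
  have h1 : (z - w) / 2 + t ∈ goodSet L (z + w) := by
    by_contra h
    exact ht (Or.inl h)
  have h2 : t ≠ 0 := fun h => ht (Or.inr h)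
  refine ⟨?_, h2⟩
  have h3 := h1.2.2
  have e1 : (z + w) / 2 + ((z - w) / 2 + t) = z + t := by ring
  have e2 : (z + w) / 2 - ((z - w) / 2 + t) = w - t := by ring
  rwa [e1, e2] at h3

end

end Fermat.Agent.S15.A.Wp
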