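import Mathlib

/-!
# S15 / A / Wp : basic analytic facts on the Weierstrass `℘`-function (on top of Mathlib's `PeriodPair`)

Everything here is about ONE period pair `L`.  `Λ = L.lattice`.
-/

set_option autoImplicit false

open Filter Topology PeriodPair

namespace Fermat.Agent.S15.A.Wp

noncomputable section

variable (L : PeriodPair)

/-- **Liouville for elliptic functions.**  An entire `Λ`-periodic function is constant.
Proof: every `z` is congruent mod `Λ` to a point of the compact parallelogram `{a ω₁ + b ω₂ : a, b ∈ [0,1]}` (use `L.basis`, `Int.floor`), `f` is continuous, hence bounded there, hence bounded on `ℂ`;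
`Differentiable.apply_eq_apply_of_bounded`.  (Compare the private `relation_eq_zero` in Mathlib's `Weierstrass.lean`.) -/
theorem eq_of_differentiable_of_periodic {f : ℂ → ℂ} (hf : Differentiable ℂ f)
    (hper : ∀ z : ℂ, ∀ l ∈ L.lattice, f (z + l) = f z) (z w : ℂ) : f z = f w := by
  exact hf.apply_eq_apply_of_bounded (IsZLattice.isCompact_range_of_periodic L.lattice _
    hf.continuous fun z w hw => hper z w hw).isBounded z w

/-- **Removable singularities + Liouville.**  A `Λ`-periodic function, holomorphic off `Λ`, bounded on a punctured neighbourhood of `0`, is constant off `Λ`.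
Proof: by periodicity `f` is bounded near every lattice point; put `g z = limUnder (𝓝[≠] z) f`; `g = f` off `Λ` (continuity; `Λᶜ` is open: `L.isClosed_lattice`), `g` is differentiable at each
lattice point by `Complex.differentiableOn_update_limUnder_of_bddAbove` (lattice points are isolated: `L.compl_lattice_sdiff_singleton_mem_nhds`), `g` is periodic; apply `eq_of_differentiable_of_periodic`. -/
theorem exists_const_of_bounded {f : ℂ → ℂ} (hf : DifferentiableOn ℂ f (L.lattice : Set ℂ)ᶜ)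
    (hper : ∀ z : ℂ, ∀ l ∈ L.lattice, f (z + l) = f z)
    (hb : ∃ C : ℝ, ∀ᶠ z in 𝓝[≠] (0 : ℂ), ‖f z‖ ≤ C) :
    ∃ c : ℂ, ∀ z : ℂ, z ∉ L.lattice → f z = c := by
  classical
  obtain ⟨C, hC⟩ := hb
  set c₀ : ℂ := limUnder (𝓝[≠] (0 : ℂ)) f with hc₀
  let g : ℂ → ℂ := fun z => if z ∈ L.lattice then c₀ else f z
  have hgper : ∀ z : ℂ, ∀ l ∈ L.lattice, g (z + l) = g z := by
    intro z l hl
    have hiff : z + l ∈ L.lattice ↔ z ∈ L.lattice :=
      L.lattice.toAddSubgroup.add_mem_cancel_right hl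
    by_cases hz : z ∈ L.lattice
    · simp only [g, if_pos hz, if_pos (hiff.mpr hz)]
    · simp only [g, if_neg hz, if_neg (fun h => hz (hiff.mp h))]
      exact hper z l hl
  -- differentiability at `0`
  have hg0 : DifferentiableAt ℂ g 0 := by
    rw [eventually_nhdsWithin_iff] at hC
    obtain ⟨U, hU, hUo, h0U⟩ := eventually_nhds_iff.mp hC
    let s : Set ℂ := U ∩ (↑L.lattice \ {(0 : ℂ)})ᶜ
    have hs : s ∈ 𝓝 (0 : ℂ) :=
      Filter.inter_mem (hUo.mem_nhds h0U) (L.compl_lattice_sdiff_singleton_mem_nhds 0)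
    have hsub : s \ {(0 : ℂ)} ⊆ (L.lattice : Set ℂ)ᶜ := by
      rintro z ⟨⟨-, hz⟩, hz0⟩ hzL
      exact hz ⟨hzL, hz0⟩
    have hd : DifferentiableOn ℂ f (s \ {(0 : ℂ)}) := hf.mono hsub
    have hbd : BddAbove (norm ∘ f '' (s \ {(0 : ℂ)})) := by
      refine ⟨C, ?_⟩
      rintro _ ⟨z, ⟨⟨hzU, -⟩, hz0⟩, rfl⟩
      exact hU z hzU hz0
    have h1 := Complex.differentiableOn_update_limUnder_of_bddAbove hs hd hbd
    have h2 : DifferentiableAt ℂ (Function.update f 0 (limUnder (𝓝[≠] (0 : ℂ)) f)) 0 :=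
      h1.differentiableAt hs
    refine h2.congr_of_eventuallyEq ?_
    filter_upwards [hs] with z hz
    by_cases hz0 : z = 0
    · subst hz0
      simp only [g, if_pos L.lattice.zero_mem, Function.update_self, hc₀]
    · have hzL : z ∉ L.lattice := fun h => hsub ⟨hz, hz0⟩ h
      simp only [g, if_neg hzL, Function.update_of_ne hz0]
  have hg : Differentiable ℂ g := by
    intro z
    by_cases hz : z ∈ L.lattice
    · have h1 : g = fun w => g (w - z) := by
        funext w
        have := hgper (w - z) z hz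
        rw [sub_add_cancel] at this
        exact this
      rw [h1]
      have h2 : DifferentiableAt ℂ g (z - z) := by rw [sub_self]; exact hg0
      exact DifferentiableAt.comp (f := fun w : ℂ => w - z) z h2 (by fun_prop)
    · have hopen : (L.lattice : Set ℂ)ᶜ ∈ 𝓝 z := L.isClosed_lattice.isOpen_compl.mem_nhds hz
      refine (hf.differentiableAt hopen).congr_of_eventuallyEq ?_
      filter_upwards [hopen] with w hw
      simp only [g]
      exact if_neg hw
  refine ⟨c₀, fun z hz => ?_⟩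
  have h1 := eq_of_differentiable_of_periodic L hg hgper z 0
  simpa only [g, if_neg hz, if_pos L.lattice.zero_mem] using h1

/-- same, and the constant is the limit at `0`. -/
theorem eq_of_tendsto {f : ℂ → ℂ} (hf : DifferentiableOn ℂ f (L.lattice : Set ℂ)ᶜ)
    (hper : ∀ z : ℂ, ∀ l ∈ L.lattice, f (z + l) = f z) {c : ℂ}
    (hlim : Tendsto f (𝓝[≠] (0 : ℂ)) (𝓝 c)) (z : ℂ) (hz : z ∉ L.lattice) : f z = c := by
  obtain ⟨c', hc'⟩ := exists_const_of_bounded L hf hper
    ⟨‖c‖ + 1, hlim.norm.eventually (Iic_mem_nhds (lt_add_one _))⟩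
  have h1 : f =ᶠ[𝓝[≠] (0 : ℂ)] fun _ => c' := by
    rw [Filter.EventuallyEq, eventually_nhdsWithin_iff]
    filter_upwards [L.compl_lattice_sdiff_singleton_mem_nhds 0] with w hw hw0
    exact hc' w fun h => hw ⟨h, hw0⟩
  have h2 : Tendsto f (𝓝[≠] (0 : ℂ)) (𝓝 c') := tendsto_const_nhds.congr' h1.symm
  rw [hc' z hz]
  exact tendsto_nhds_unique h2 hlim

/-- (helper, `A-Wp-Exp`) -/
theorem WpExp_wp_sub (z : ℂ) : ℘[L] z - 1 / z ^ 2 = L.weierstrassPExcept 0 z := by
  have h := L.weierstrassPExcept_def (0 : L.lattice) z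
  simp only [ZeroMemClass.coe_zero, sub_zero] at h
  rw [h]
  simp
  ring

/-- (helper, `A-Wp-Exp`) -/
theorem WpExp_wp'_add (z : ℂ) : ℘'[L] z + 2 / z ^ 3 = L.derivWeierstrassPExcept 0 z := by
  have h := L.derivWeierstrassPExcept_def (0 : L.lattice) z
  simp only [ZeroMemClass.coe_zero, sub_zero] at h
  rw [h]

/-- `℘(z) = z⁻² + r(z)` with `r = ℘[L - 0]` analytic at `0`, `r 0 = 0` (`weierstrassPExcept_add`, `analyticAt_weierstrassPExcept`). -/
theorem tendsto_wp_sub : Tendsto (fun z : ℂ => ℘[L] z - 1 / z ^ 2) (𝓝[≠] (0 : ℂ)) (𝓝 0) := by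
  simp only [WpExp_wp_sub]
  have h := (L.analyticAt_weierstrassPExcept 0).continuousAt.tendsto
  rw [L.weierstrassPExcept_zero] at h
  exact h.mono_left nhdsWithin_le_nhds

/-- `℘'(z) = -2 z⁻³ + r'(z)`, `r' 0 = 0` (`r'` is odd). -/
theorem tendsto_wp'_add : Tendsto (fun z : ℂ => ℘'[L] z + 2 / z ^ 3) (𝓝[≠] (0 : ℂ)) (𝓝 0) := by
  simp only [WpExp_wp'_add]
  have h := (L.analyticAt_derivWeierstrassPExcept 0).continuousAt.tendsto
  rw [L.derivWeierstrassPExcept_zero_zero] at h
  exact h.mono_left nhdsWithin_le_nhds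

/-- `(℘(z) - z⁻²)/z² → 3 G₄` (Taylor coefficient of `℘[L - 0]`: `iteratedDeriv_weierstrassPExcept_self`, or `coeff_weierstrassPExceptSeries`). -/
theorem tendsto_wp_sub_div : Tendsto (fun z : ℂ => (℘[L] z - 1 / z ^ 2) / z ^ 2) (𝓝[≠] (0 : ℂ)) (𝓝 (3 * L.G 4)) := by
  simp only [WpExp_wp_sub]
  have h := (L.hasFPowerSeriesAt_weierstrassPExcept 0).isBigO_sub_partialSum_pow 3
  have hG3 : L.G 3 = 0 := L.G_eq_zero_of_odd 3 (by decide)
  simp only [FormalMultilinearSeries.partialSum, Finset.sum_range_succ, Finset.sum_range_zero,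
    FormalMultilinearSeries.ofScalars_apply_eq, zero_add, L.sumInvPow_zero,
    L.weierstrassPExcept_zero] at h
  norm_num [hG3] at h
  obtain ⟨C, hC⟩ := h.bound
  rw [tendsto_iff_norm_sub_tendsto_zero]
  have hlim : Tendsto (fun z : ℂ => C * ‖z‖) (𝓝[≠] (0 : ℂ)) (𝓝 0) := by
    have : Tendsto (fun z : ℂ => C * ‖z‖) (𝓝 (0 : ℂ)) (𝓝 (C * ‖(0 : ℂ)‖)) :=
      (continuous_const.mul continuous_norm).tendsto 0
    rw [norm_zero, mul_zero] at this
    exact this.mono_left nhdsWithin_le_nhds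
  refine squeeze_zero' (Eventually.of_forall fun _ => norm_nonneg _) ?_ hlim
  filter_upwards [hC.filter_mono nhdsWithin_le_nhds, self_mem_nhdsWithin] with z hz hz0
  have hz0' : z ≠ 0 := hz0
  have hn : 0 < ‖z‖ := norm_pos_iff.2 hz0'
  have e : L.weierstrassPExcept 0 z / z ^ 2 - 3 * L.G 4 = (L.weierstrassPExcept 0 z - 3 * L.G 4 * z ^ 2) / z ^ 2 := by
    field_simp
  rw [e, norm_div, norm_pow, div_le_iff₀ (by positivity)]
  refine hz.trans (le_of_eq ?_)
  rw [norm_pow, norm_norm]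
  ring

theorem norm_wp_tendsto_atTop : Tendsto (fun z : ℂ => ‖℘[L] z‖) (𝓝[≠] (0 : ℂ)) atTop := by
  have h1 : Tendsto (fun z : ℂ => ‖1 / z ^ 2‖) (𝓝[≠] (0 : ℂ)) atTop := by
    have h := (tendsto_pow_atTop (α := ℝ) (n := 2) (by norm_num)).comp
      (tendsto_norm_inv_nhdsNE_zero_atTop (α := ℂ))
    refine h.congr fun z => ?_
    simp
  have h2 : Tendsto (fun z : ℂ => -‖℘[L] z - 1 / z ^ 2‖) (𝓝[≠] (0 : ℂ)) (𝓝 0) := by
    have := (tendsto_wp_sub L).norm.neg
    simpa using this
  refine tendsto_atTop_mono (fun z => ?_) (h1.atTop_add h2)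
  have := norm_sub_norm_le (1 / z ^ 2) (℘[L] z)
  rw [norm_sub_rev] at this
  linarith

theorem hasDerivAt_wp (z : ℂ) (hz : z ∉ L.lattice) : HasDerivAt ℘[L] (℘'[L] z) z := by
  have h := (L.differentiableOn_weierstrassP.differentiableAt
    (L.isClosed_lattice.isOpen_compl.mem_nhds hz)).hasDerivAt
  rwa [L.deriv_weierstrassP] at h

/-- (task A-Wp-ODE2) the complement of the lattice is preconnected. -/
theorem WpODE2_isPreconnected_compl_lattice : IsPreconnected ((L.lattice : Set ℂ)ᶜ) := by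
  have hc : (L.lattice : Set ℂ).Countable := by
    have : Countable L.lattice := L.latticeEquivProd.toEquiv.injective.countable
    exact Set.countable_coe_iff.mp this
  have hr : 1 < Module.rank ℝ ℂ := by
    rw [Complex.rank_real_complex]
    exact Cardinal.one_lt_two
  exact (hc.isPathConnected_compl_of_one_lt_rank hr).isConnected.isPreconnected

/-- (task A-Wp-ODE2) `℘'` does not vanish identically off the lattice. -/
theorem WpODE2_not_forall_wp'_eq_zero : ¬ ∀ z ∈ ((L.lattice : Set ℂ)ᶜ), ℘'[L] z = 0 := by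
  intro h
  have hUo : IsOpen ((L.lattice : Set ℂ)ᶜ) := L.isClosed_lattice.isOpen_compl
  obtain ⟨c, hc⟩ := hUo.exists_is_const_of_deriv_eq_zero (WpODE2_isPreconnected_compl_lattice L)
    L.differentiableOn_weierstrassP (fun z hz => by
      rw [L.deriv_weierstrassP]; exact h z hz)
  have h2 : ∀ᶠ w in 𝓝[≠] (0 : ℂ), w ∉ L.lattice := by
    have h := L.compl_lattice_sdiff_singleton_mem_nhds 0
    rw [eventually_nhdsWithin_iff]
    filter_upwards [h] with w hw hw0 hmem
    exact hw ⟨hmem, hw0⟩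
  have h4 := (norm_wp_tendsto_atTop L).eventually_gt_atTop ‖c‖
  obtain ⟨w, hw1, hw2⟩ := (h2.and h4).exists
  rw [hc w hw1] at hw2
  exact lt_irrefl _ hw2

/-- `℘'' = 6 ℘² - g₂/2`.
Proof A: `f = deriv ℘' - 6 ℘² ` is periodic, holomorphic off `Λ`, and tends to `-g₂/2 = -30 G₄` at `0` (`℘'' = 6 z⁻⁴ + r''`, `6℘² = 6 z⁻⁴ + 12 r/z² + 6 r²`, `r'' 0 = 6 G₄`, `r/z² → 3 G₄`); `eq_of_tendsto`.
Proof B: differentiate `derivWeierstrassP_sq`: `℘' (2℘'' - 12℘² + g₂) = 0` on the connected open set `Λᶜ`; identity theorem, `℘' ≢ 0`. -/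
theorem hasDerivAt_wp' (z : ℂ) (hz : z ∉ L.lattice) :
    HasDerivAt ℘'[L] (6 * ℘[L] z ^ 2 - L.g₂ / 2) z := by
  have hUo : IsOpen ((L.lattice : Set ℂ)ᶜ) := L.isClosed_lattice.isOpen_compl
  have hP : AnalyticOnNhd ℂ ℘[L] (L.lattice : Set ℂ)ᶜ := L.analyticOnNhd_weierstrassP
  have hP' : AnalyticOnNhd ℂ ℘'[L] (L.lattice : Set ℂ)ᶜ := L.analyticOnNhd_derivWeierstrassP
  have hD : AnalyticOnNhd ℂ (deriv ℘'[L]) (L.lattice : Set ℂ)ᶜ := hP'.deriv
  have hd' : ∀ x ∈ (L.lattice : Set ℂ)ᶜ, HasDerivAt ℘'[L] (deriv ℘'[L] x) x := fun x hx =>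
    (hP' x hx).differentiableAt.hasDerivAt
  have hmul : ∀ x ∈ (L.lattice : Set ℂ)ᶜ,
      ℘'[L] x * (2 * deriv ℘'[L] x - 12 * ℘[L] x ^ 2 + L.g₂) = 0 := by
    intro x hx
    have h1 : HasDerivAt (fun y => ℘'[L] y ^ 2 - (4 * ℘[L] y ^ 3 - L.g₂ * ℘[L] y - L.g₃))
        (2 * ℘'[L] x ^ 1 * deriv ℘'[L] x
          - (4 * (3 * ℘[L] x ^ 2 * ℘'[L] x) - L.g₂ * ℘'[L] x - 0)) x := by
      have a := hasDerivAt_wp L x hx
      exact ((hd' x hx).pow 2).sub ((((a.pow 3).const_mul 4).sub (a.const_mul L.g₂)).sub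
        (hasDerivAt_const x L.g₃))
    have h2 : (fun y => ℘'[L] y ^ 2 - (4 * ℘[L] y ^ 3 - L.g₂ * ℘[L] y - L.g₃))
        =ᶠ[𝓝 x] fun _ => (0 : ℂ) := by
      filter_upwards [hUo.mem_nhds hx] with y hy
      rw [L.derivWeierstrassP_sq y hy, sub_self]
    have h3 := h1.unique ((hasDerivAt_const x (0 : ℂ)).congr_of_eventuallyEq h2)
    linear_combination h3
  have hg : AnalyticOnNhd ℂ (fun x => 2 * deriv ℘'[L] x - 12 * ℘[L] x ^ 2 + L.g₂)
      (L.lattice : Set ℂ)ᶜ := by
    intro x hx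
    exact (((analyticAt_const).mul (hD x hx)).sub ((analyticAt_const).mul ((hP x hx).pow 2))).add
      analyticAt_const
  rcases hP'.eq_zero_or_eq_zero_of_mul_eq_zero hg hmul (WpODE2_isPreconnected_compl_lattice L)
    with h | h
  · exact absurd h (WpODE2_not_forall_wp'_eq_zero L)
  · have h1 := h z hz
    have h2 : deriv ℘'[L] z = 6 * ℘[L] z ^ 2 - L.g₂ / 2 := by linear_combination h1 / 2
    rw [← h2]
    exact hd' z hz

/-- `℘` takes every value.  Proof: otherwise `f = 1/(℘ - c)` is periodic, holomorphic off `Λ` and tends to `0` at `0` (`norm_wp_tendsto_atTop`), so `f = 0` off `Λ` by `eq_of_tendsto`: absurd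
(`L.ω₁_div_two_notMem_lattice` gives a point off `Λ`, where `1/(℘ - c) ≠ 0`). -/
theorem wp_surjective (c : ℂ) : ∃ z : ℂ, z ∉ L.lattice ∧ ℘[L] z = c := by
  by_contra hcon
  push Not at hcon
  have hne : ∀ z : ℂ, z ∉ L.lattice → ℘[L] z - c ≠ 0 := fun z hz => sub_ne_zero.mpr (hcon z hz)
  have hf : DifferentiableOn ℂ (fun z => (℘[L] z - c)⁻¹) (L.lattice : Set ℂ)ᶜ := by
    apply DifferentiableOn.inv
    · exact L.differentiableOn_weierstrassP.sub_const c
    · intro z hz
      exact hne z hz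
  have hper : ∀ z : ℂ, ∀ l ∈ L.lattice, (fun z => (℘[L] z - c)⁻¹) (z + l)
      = (fun z => (℘[L] z - c)⁻¹) z := by
    intro z l hl
    have := L.weierstrassP_add_coe z ⟨l, hl⟩
    simp only at this ⊢
    rw [this]
  have hlim : Tendsto (fun z => (℘[L] z - c)⁻¹) (𝓝[≠] (0 : ℂ)) (𝓝 0) := by
    rw [tendsto_zero_iff_norm_tendsto_zero]
    simp only [norm_inv]
    apply Filter.Tendsto.inv_tendsto_atTop
    have h1 : Tendsto (fun z : ℂ => ‖℘[L] z‖ - ‖c‖) (𝓝[≠] (0 : ℂ)) atTop :=
      tendsto_atTop_add_const_right _ (-‖c‖) (norm_wp_tendsto_atTop L)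
    exact tendsto_atTop_mono (fun z => norm_sub_norm_le _ _) h1
  have h0 := eq_of_tendsto L hf hper hlim (L.ω₁ / 2) L.ω₁_div_two_notMem_lattice
  exact inv_ne_zero (hne _ L.ω₁_div_two_notMem_lattice) h0

/-- the lattice is countable (`L.latticeEquivProd`). -/
theorem countable_lattice : (L.lattice : Set ℂ).Countable := by
  have : Countable L.lattice := L.latticeEquivProd.toEquiv.injective.countable
  exact Set.countable_coe_iff.mp this

/-- The zero set (off `Λ`-translates) of a nonzero "elliptic-type" analytic function is countable.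
General form: `U` open, `f` analytic on `U`, `U` preconnected, `f` not identically `0` on `U` ⟹ `{z ∈ U | f z = 0}` is countable.
Proof: zeros are isolated (`AnalyticOnNhd.eqOn_zero_of_preconnected_of_frequently_eq_zero`), so the zero set is a discrete subset of the second countable space `ℂ`
(`Set.countable_of_isolated...` / `TopologicalSpace.separableSpace`-type lemma: a subset of a second countable space with discrete induced topology is countable). -/
theorem countable_zeros {U : Set ℂ} (hU : IsOpen U) (hc : IsPreconnected U) {f : ℂ → ℂ}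
    (hf : AnalyticOnNhd ℂ f U) {z₀ : ℂ} (hz₀ : z₀ ∈ U) (h0 : f z₀ ≠ 0) :
    {z | z ∈ U ∧ f z = 0}.Countable := by
  apply IsLindelof.countable_of_isDiscrete
  · exact HereditarilyLindelofSpace.isLindelof _
  · rw [isDiscrete_iff_nhdsNE]
    rintro z ⟨hzU, hz⟩
    rcases (hf z hzU).eventually_eq_zero_or_eventually_ne_zero with h | h
    · exfalso
      have := hf.eqOn_zero_of_preconnected_of_eventuallyEq_zero hc hzU h
      exact h0 (this hz₀)
    · rw [← disjoint_iff, Filter.disjoint_principal_right]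
      filter_upwards [h] with w hw hw'
      exact hw hw'.2

/-- the complement of a countable set in `ℂ` is preconnected (`Set.Countable.isPathConnected_compl_of_one_lt_rank`, `Complex.rank_real_complex`). -/
theorem isPreconnected_compl_of_countable {S : Set ℂ} (hS : S.Countable) : IsPreconnected Sᶜ := by
  have h : 1 < Module.rank ℝ ℂ := by
    rw [Complex.rank_real_complex]
    norm_num
  exact (hS.isPathConnected_compl_of_one_lt_rank h).isConnected.isPreconnected

end

end Fermat.Agent.S15.A.Wp
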