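import Fermat.Agent.S15.A.Wp.Add
import Fermat.Agent.S05.Formulas

/-!
# S15 / A / Wp : the analytic uniformisation `ℂ/Λ ≃ W(ℂ)` as a group homomorphism
-/

set_option autoImplicit false

open Filter Topology PeriodPair WeierstrassCurve WeierstrassCurve.Affine

namespace Fermat.Agent.S15.A.Wp

open Fermat.Agent.S05 (xc yc)

noncomputable section

/-- `L` uniformises `W`: with `X = x + b₂/12`, `Y = 2y + a₁x + a₃` the curve is `Y² = 4X³ - g₂X - g₃`. -/
structure Unif (W : Affine ℂ) (L : PeriodPair) : Prop where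
  c₄ : W.c₄ = 12 * L.g₂
  c₆ : W.c₆ = 216 * L.g₃
  hΔ : W.Δ ≠ 0

variable {W : Affine ℂ} {L : PeriodPair}

/-- `x(z) = ℘(z) - b₂/12`. -/
def xOf (W : Affine ℂ) (L : PeriodPair) (z : ℂ) : ℂ := ℘[L] z - W.b₂ / 12

/-- `y(z) = (℘'(z) - a₁ x(z) - a₃)/2`. -/
def yOf (W : Affine ℂ) (L : PeriodPair) (z : ℂ) : ℂ := (℘'[L] z - W.a₁ * xOf W L z - W.a₃) / 2

/-- `W.Δ = g₂³ - 27 g₃²` (`1728 Δ = c₄³ - c₆²`: `WeierstrassCurve.c_relation`). -/
theorem Unif.disc (h : Unif W L) : W.Δ = L.g₂ ^ 3 - 27 * L.g₃ ^ 2 := by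
  have h1 := W.c_relation
  rw [h.c₄, h.c₆] at h1
  linear_combination (1 / 1728) * h1

/-- `derivWeierstrassP_sq` + `equation_iff` + `nonsingular_of_Δ_ne_zero`; `c₄ = b₂² - 24 b₄`, `c₆ = -b₂³ + 36 b₂b₄ - 216 b₆`. -/
theorem Unif.nonsingular (h : Unif W L) (z : ℂ) (hz : z ∉ L.lattice) :
    W.Nonsingular (xOf W L z) (yOf W L z) := by
  rw [← equation_iff_nonsingular_of_Δ_ne_zero h.hΔ, equation_iff]
  have hsq := L.derivWeierstrassP_sq z hz
  have hc4 := h.c₄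
  have hc6 := h.c₆
  simp only [WeierstrassCurve.c₄, WeierstrassCurve.c₆, WeierstrassCurve.b₂, WeierstrassCurve.b₄,
    WeierstrassCurve.b₆] at hc4 hc6
  simp only [xOf, yOf, WeierstrassCurve.b₂]
  linear_combination (1 / 4) * hsq + (℘[L] z / 48) * hc4 + (1 / 864) * hc6

open Classical in
/-- the uniformisation map -/
def Phi (h : Unif W L) (z : ℂ) : W.Point :=
  if hz : z ∈ L.lattice then 0 else .some _ _ (h.nonsingular z hz)

theorem Phi_of_mem (h : Unif W L) {z : ℂ} (hz : z ∈ L.lattice) : Phi h z = 0 := by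
  simp [Phi, hz]

theorem Phi_of_notMem (h : Unif W L) {z : ℂ} (hz : z ∉ L.lattice) :
    Phi h z = .some _ _ (h.nonsingular z hz) := by
  simp [Phi, hz]

theorem Phi_eq_zero_iff (h : Unif W L) (z : ℂ) : Phi h z = 0 ↔ z ∈ L.lattice := by
  constructor
  · intro h0
    by_contra hz
    rw [Phi_of_notMem h hz] at h0
    exact Point.some_ne_zero _ h0
  · exact Phi_of_mem h

theorem xc_Phi (h : Unif W L) {z : ℂ} (hz : z ∉ L.lattice) : xc (Phi h z) = ℘[L] z - W.b₂ / 12 := by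
  rw [Phi_of_notMem h hz]
  rfl

/-- also true on the lattice (`derivWeierstrassP_coe`, `yc 0 = 0`). -/
theorem yc_Phi (h : Unif W L) (z : ℂ) : yc (Phi h z) = ℘'[L] z := by
  by_cases hz : z ∈ L.lattice
  · rw [Phi_of_mem h hz, Fermat.Agent.S05.yc_zero]
    exact (L.derivWeierstrassP_coe ⟨z, hz⟩).symm
  · rw [Phi_of_notMem h hz, Fermat.Agent.S05.yc_some, yOf]
    ring

theorem Phi_add_lattice (h : Unif W L) (z : ℂ) {l : ℂ} (hl : l ∈ L.lattice) :
    Phi h (z + l) = Phi h z := by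
  by_cases hz : z ∈ L.lattice
  · rw [Phi_of_mem h hz, Phi_of_mem h (add_mem hz hl)]
  · have hzl : z + l ∉ L.lattice := fun h' => hz (by simpa using sub_mem h' hl)
    rw [Phi_of_notMem h hz, Phi_of_notMem h hzl]
    have h1 : ℘[L] (z + l) = ℘[L] z := L.weierstrassP_add_coe z ⟨l, hl⟩
    have h2 : ℘'[L] (z + l) = ℘'[L] z := L.derivWeierstrassP_add_coe z ⟨l, hl⟩
    have hx : xOf W L (z + l) = xOf W L z := by rw [xOf, xOf, h1]
    have hy : yOf W L (z + l) = yOf W L z := by rw [yOf, yOf, h2, hx]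
    simp only [hx, hy]

theorem Phi_neg (h : Unif W L) (z : ℂ) : Phi h (-z) = -Phi h z := by
  by_cases hz : z ∈ L.lattice
  · rw [Phi_of_mem h hz, Phi_of_mem h (neg_mem hz), neg_zero]
  · have hzl : -z ∉ L.lattice := fun h' => hz (by simpa using neg_mem h')
    rw [Phi_of_notMem h hz, Phi_of_notMem h hzl, Point.neg_some]
    have hx : xOf W L (-z) = xOf W L z := by rw [xOf, xOf, L.weierstrassP_neg]
    have hy : yOf W L (-z) = W.negY (xOf W L z) (yOf W L z) := by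
      rw [negY, yOf, yOf, L.derivWeierstrassP_neg, hx]
      ring
    simp only [hx, hy]

/-- generic case: `Point.add_of_X_ne`, `slope_of_X_ne`, `addX`, `addY`, `negY`; `wp_add`, `wp'_add`.
With `ℓ = (y₁-y₂)/(x₁-x₂) = R/2 - a₁/2`, `R = (℘'z-℘'w)/(℘z-℘w)`: `ℓ² + a₁ℓ - a₂ - x₁ - x₂ = R²/4 - b₂/4 - x₁ - x₂`. -/
theorem Phi_add_generic (h : Unif W L) {z w : ℂ} (hz : z ∉ L.lattice) (hw : w ∉ L.lattice)
    (hzw : z + w ∉ L.lattice) (hne : ℘[L] z ≠ ℘[L] w) : Phi h (z + w) = Phi h z + Phi h w := by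
  rw [Phi_of_notMem h hz, Phi_of_notMem h hw, Phi_of_notMem h hzw]
  have hx : xOf W L z ≠ xOf W L w := by
    intro e
    exact hne (sub_left_injective e)
  rw [Point.add_of_X_ne hx]
  have hp : ℘[L] z - ℘[L] w ≠ 0 := sub_ne_zero.2 hne
  have hs : W.slope (xOf W L z) (xOf W L w) (yOf W L z) (yOf W L w)
      = (℘'[L] z - ℘'[L] w) / (℘[L] z - ℘[L] w) / 2 - W.a₁ / 2 := by
    rw [slope_of_X_ne hx]
    have e1 : xOf W L z - xOf W L w = ℘[L] z - ℘[L] w := by simp only [xOf]; ring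
    have e2 : yOf W L z - yOf W L w
        = ((℘'[L] z - ℘'[L] w) - W.a₁ * (℘[L] z - ℘[L] w)) / 2 := by
      simp only [yOf, xOf]; ring
    rw [e1, e2]
    field_simp
  have ex : xOf W L (z + w) = W.addX (xOf W L z) (xOf W L w)
      (W.slope (xOf W L z) (xOf W L w) (yOf W L z) (yOf W L w)) := by
    rw [hs, addX, xOf, wp_add L hz hw hzw hne, addF, xOf, xOf, WeierstrassCurve.b₂]
    ring
  have ey : yOf W L (z + w) = W.addY (xOf W L z) (xOf W L w) (yOf W L z)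
      (W.slope (xOf W L z) (xOf W L w) (yOf W L z) (yOf W L w)) := by
    rw [addY, negAddY, ← ex, hs, negY, yOf, wp'_add L hz hw hzw hne, yOf]
    simp only [xOf]
    ring
  simp only [Point.some.injEq]
  exact ⟨ex, ey⟩

/-- **`Phi` is additive.**  Cases `z ∈ Λ`, `w ∈ Λ` (`Phi_add_lattice`), `z + w ∈ Λ` (`Phi_neg`).  Otherwise pick a small `t ≠ 0` with: `t, z+t, w-t ∉ Λ` (eventually, `Λ` closed and discrete),
`℘ t ≠ ℘ z`, `℘ t ≠ ℘ w` (eventually: `norm_wp_tendsto_atTop`), `℘(z+t) ≠ ℘(w-t)` (frequently: `frequently_wp_ne`).  Then by `Phi_add_generic` three times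
`Phi(z+w) = Phi(z+t) + Phi(w-t) = Phi z + Phi t + Phi w + Phi(-t)`. -/
theorem Phi_add (h : Unif W L) (z w : ℂ) : Phi h (z + w) = Phi h z + Phi h w := by
  by_cases hz : z ∈ L.lattice
  · rw [add_comm z w, Phi_add_lattice h w hz, Phi_of_mem h hz, zero_add]
  by_cases hw : w ∈ L.lattice
  · rw [Phi_add_lattice h z hw, Phi_of_mem h hw, add_zero]
  by_cases hzw : z + w ∈ L.lattice
  · have h1 : Phi h w = -Phi h z := by
      rw [← Phi_neg, ← Phi_add_lattice h (-z) hzw]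
      congr 1
      ring
    rw [Phi_of_mem h hzw, h1, add_neg_cancel]
  have hopen : IsOpen ((L.lattice : Set ℂ)ᶜ) := L.isClosed_lattice.isOpen_compl
  have ha : ∀ᶠ t in 𝓝[≠] (0 : ℂ), t ∉ L.lattice := by
    have h' := L.compl_lattice_sdiff_singleton_mem_nhds 0
    rw [eventually_nhdsWithin_iff]
    filter_upwards [h'] with t ht ht0 hmem
    exact ht ⟨hmem, ht0⟩
  have hb : ∀ᶠ t in 𝓝[≠] (0 : ℂ), z + t ∉ L.lattice := by
    have hcont : ContinuousAt (fun t : ℂ => z + t) 0 := by fun_prop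
    have h1 : ∀ᶠ t in 𝓝 (0 : ℂ), z + t ∈ (L.lattice : Set ℂ)ᶜ :=
      hcont.eventually_mem (hopen.mem_nhds (by simpa using hz))
    exact h1.filter_mono nhdsWithin_le_nhds
  have hc : ∀ᶠ t in 𝓝[≠] (0 : ℂ), w - t ∉ L.lattice := by
    have hcont : ContinuousAt (fun t : ℂ => w - t) 0 := by fun_prop
    have h1 : ∀ᶠ t in 𝓝 (0 : ℂ), w - t ∈ (L.lattice : Set ℂ)ᶜ :=
      hcont.eventually_mem (hopen.mem_nhds (by simpa using hw))
    exact h1.filter_mono nhdsWithin_le_nhds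
  have hd := (norm_wp_tendsto_atTop L).eventually_gt_atTop ‖℘[L] z‖
  have hd' := (norm_wp_tendsto_atTop L).eventually_gt_atTop ‖℘[L] w‖
  obtain ⟨t, he, ha, hb, hc, hd, hd'⟩ :=
    ((frequently_wp_ne L hzw).and_eventually (ha.and (hb.and (hc.and (hd.and hd'))))).exists
  have hnt : -t ∉ L.lattice := fun hm => ha (by simpa using neg_mem hm)
  have e1 : z + w = (z + t) + (w - t) := by ring
  have h1 : Phi h (z + w) = Phi h (z + t) + Phi h (w - t) := by
    rw [e1]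
    exact Phi_add_generic h hb hc (by rwa [← e1]) he
  have h2 : Phi h (z + t) = Phi h z + Phi h t :=
    Phi_add_generic h hz ha hb (fun hh => by rw [hh] at hd; exact lt_irrefl _ hd)
  have h3 : Phi h (w - t) = Phi h w + Phi h (-t) := by
    rw [sub_eq_add_neg]
    refine Phi_add_generic h hw hnt (by rwa [← sub_eq_add_neg]) (fun hh => ?_)
    rw [hh, L.weierstrassP_neg] at hd'
    exact lt_irrefl _ hd'
  rw [h1, h2, h3, Phi_neg]
  abel

/-- `Phi` as a homomorphism. -/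
def PhiHom (h : Unif W L) : ℂ →+ W.Point where
  toFun := Phi h
  map_zero' := Phi_of_mem h (zero_mem _)
  map_add' := Phi_add h

@[simp] theorem PhiHom_apply (h : Unif W L) (z : ℂ) : PhiHom h z = Phi h z := rfl

/-- `wp_surjective` gives `z` with the right `x`; then `℘'(z)² = yc(P)²` (`yc_sq`, `derivWeierstrassP_sq`), so `℘' z = ± yc P`; replace `z` by `-z` if necessary. -/
theorem Phi_surjective (h : Unif W L) : Function.Surjective (Phi h) := by
  intro P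
  by_cases hP : P = 0
  · exact ⟨0, by rw [hP]; exact Phi_of_mem h (zero_mem _)⟩
  · obtain ⟨z, hz, hzc⟩ := wp_surjective L (xc P + W.b₂ / 12)
    have hx : xc (Phi h z) = xc P := by
      rw [xc_Phi h hz, hzc]
      ring
    have h0 : Phi h z ≠ 0 := fun h0 => hz ((Phi_eq_zero_iff h z).1 h0)
    rcases Fermat.Agent.S05.eq_or_eq_neg_of_xc_eq h0 hP hx with h1 | h1
    · exact ⟨z, h1⟩
    · exact ⟨-z, by rw [Phi_neg, h1, neg_neg]⟩

/-- `℘ z = ℘ w ↔ z ≡ ± w`.  (`eq_or_eq_neg_of_xc_eq`, `Phi_add`, `Phi_neg`, `Phi_eq_zero_iff`.) -/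
theorem Unif.wp_eq_iff (h : Unif W L) {z w : ℂ} (hz : z ∉ L.lattice) (hw : w ∉ L.lattice) :
    ℘[L] z = ℘[L] w ↔ z - w ∈ L.lattice ∨ z + w ∈ L.lattice := by
  have hz0 : Phi h z ≠ 0 := fun h0 => hz ((Phi_eq_zero_iff h z).1 h0)
  have hw0 : Phi h w ≠ 0 := fun h0 => hw ((Phi_eq_zero_iff h w).1 h0)
  constructor
  · intro heq
    have hx : xc (Phi h z) = xc (Phi h w) := by rw [xc_Phi h hz, xc_Phi h hw, heq]
    rcases Fermat.Agent.S05.eq_or_eq_neg_of_xc_eq hz0 hw0 hx with h1 | h1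
    · left
      rw [← Phi_eq_zero_iff h, sub_eq_add_neg, Phi_add, Phi_neg, h1, add_neg_cancel]
    · right
      rw [← Phi_eq_zero_iff h, Phi_add, h1, neg_add_cancel]
  · intro hor
    have hx : xc (Phi h z) = xc (Phi h w) := by
      rcases hor with h1 | h1
      · have e : z = w + (z - w) := by ring
        rw [e, Phi_add_lattice h w h1]
      · have e : z = -w + (z + w) := by ring
        rw [e, Phi_add_lattice h (-w) h1, Phi_neg, Fermat.Agent.S05.xc_neg]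
    rw [xc_Phi h hz, xc_Phi h hw] at hx
    exact sub_left_injective hx

/-- `℘' z = 0 ↔ 2z ∈ Λ` (`yc_eq_zero_of_add_self`, `add_self_eq_zero_of_yc`). -/
theorem Unif.wp'_eq_zero_iff (h : Unif W L) {z : ℂ} (hz : z ∉ L.lattice) :
    ℘'[L] z = 0 ↔ 2 * z ∈ L.lattice := by
  rw [← yc_Phi h z, two_mul, ← Phi_eq_zero_iff h, Phi_add]
  exact ⟨Fermat.Agent.S05.add_self_eq_zero_of_yc, Fermat.Agent.S05.yc_eq_zero_of_add_self⟩

/-- every `L` with `g₂³ ≠ 27 g₃²` uniformises `y² = x³ - (g₂/4) x - g₃/4`. -/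
def curveOf (L : PeriodPair) : Affine ℂ := ⟨0, 0, 0, -L.g₂ / 4, -L.g₃ / 4⟩

theorem unif_curveOf (L : PeriodPair) (hL : L.g₂ ^ 3 - 27 * L.g₃ ^ 2 ≠ 0) : Unif (curveOf L) L := by
  refine ⟨?_, ?_, ?_⟩
  · simp only [curveOf, WeierstrassCurve.c₄, WeierstrassCurve.b₂, WeierstrassCurve.b₄]
    ring
  · simp only [curveOf, WeierstrassCurve.c₆, WeierstrassCurve.b₂, WeierstrassCurve.b₄,
      WeierstrassCurve.b₆]
    ring
  · have : (curveOf L).Δ = L.g₂ ^ 3 - 27 * L.g₃ ^ 2 := by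
      simp only [curveOf, WeierstrassCurve.Δ, WeierstrassCurve.b₂, WeierstrassCurve.b₄,
        WeierstrassCurve.b₆, WeierstrassCurve.b₈]
      ring
    rw [this]
    exact hL

end

end Fermat.Agent.S15.A.Wp
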