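import Fermat.Agent.S15.A.Wp.Spade
import Fermat.Agent.S24.JBasic

/-!
# S15 / A / Wp : change of basis, scaling, and the link with `E₄`, `E₆`, `Δ`, `j`
-/

set_option autoImplicit false

open Filter Topology PeriodPair WeierstrassCurve WeierstrassCurve.Affine UpperHalfPlane

namespace Fermat.Agent.S15.A.Wp

open Fermat.Agent.S24 (jfun mulH)

noncomputable section

section SameLattice

variable {L L' : PeriodPair}

/-- (task A-Lat-Congr) sums over equal submodules. -/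
theorem LatCongr_tsum_congr {S S' : Submodule ℤ ℂ} (h : S = S') (f : ℂ → ℂ) :
    ∑' l : S, f l = ∑' l : S', f l := by
  subst h
  rfl

/-- everything depends only on the lattice (reindex the `tsum` along the equality of the index sets). -/
theorem wp_congr (h : L.lattice = L'.lattice) (z : ℂ) : ℘[L] z = ℘[L'] z :=
  LatCongr_tsum_congr h (fun l => 1 / (z - l) ^ 2 - 1 / l ^ 2)

theorem wp'_congr (h : L.lattice = L'.lattice) (z : ℂ) : ℘'[L] z = ℘'[L'] z :=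
  congrArg Neg.neg (LatCongr_tsum_congr h (fun l => 2 / (z - l) ^ 3))

theorem G_congr (h : L.lattice = L'.lattice) (n : ℕ) : L.G n = L'.G n :=
  LatCongr_tsum_congr h (fun l => (l ^ n)⁻¹)

theorem Unif.congr {W : Affine ℂ} (hW : Unif W L) (h : L.lattice = L'.lattice) : Unif W L' := by
  refine ⟨?_, ?_, hW.hΔ⟩
  · rw [hW.c₄, PeriodPair.g₂, PeriodPair.g₂, G_congr h]
  · rw [hW.c₆, PeriodPair.g₃, PeriodPair.g₃, G_congr h]

end SameLattice

section Scale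

theorem indep_scale (c : ℂ) (hc : c ≠ 0) (L : PeriodPair) :
    LinearIndependent ℝ ![c * L.ω₁, c * L.ω₂] := by
  have h1 := L.indep.map' (LinearMap.mulLeft ℝ c) (by
    rw [LinearMap.ker_eq_bot]
    intro a b hab
    exact mul_left_cancel₀ hc hab)
  have h2 : (LinearMap.mulLeft ℝ c) ∘ ![L.ω₁, L.ω₂] = ![c * L.ω₁, c * L.ω₂] := by
    funext i
    fin_cases i <;> rfl
  rwa [h2] at h1

/-- `c L = (c ω₁, c ω₂)`. -/
def scale (c : ℂ) (hc : c ≠ 0) (L : PeriodPair) : PeriodPair :=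
  ⟨c * L.ω₁, c * L.ω₂, indep_scale c hc L⟩

variable (c : ℂ) (hc : c ≠ 0) (L : PeriodPair)

theorem mem_lattice_scale_iff (z : ℂ) : c * z ∈ (scale c hc L).lattice ↔ z ∈ L.lattice := by
  rw [PeriodPair.mem_lattice, PeriodPair.mem_lattice]
  constructor
  · rintro ⟨m, n, h⟩
    refine ⟨m, n, mul_left_cancel₀ hc ?_⟩
    rw [← h]
    show c * (m * L.ω₁ + n * L.ω₂) = m * (c * L.ω₁) + n * (c * L.ω₂)
    ring
  · rintro ⟨m, n, rfl⟩
    refine ⟨m, n, ?_⟩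
    show (m : ℂ) * (c * L.ω₁) + n * (c * L.ω₂) = c * (m * L.ω₁ + n * L.ω₂)
    ring

/-- (task A-Lat-Congr) multiplication by `c` as an equivalence of the lattices. -/
def LatCongr_scaleEquiv : L.lattice ≃ (scale c hc L).lattice where
  toFun l := ⟨c * l, (mem_lattice_scale_iff c hc L l).mpr l.2⟩
  invFun l := ⟨c⁻¹ * l, (mem_lattice_scale_iff c hc L (c⁻¹ * l)).mp (by
    rw [mul_inv_cancel_left₀ hc]; exact l.2)⟩
  left_inv l := Subtype.ext (inv_mul_cancel_left₀ hc _)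
  right_inv l := Subtype.ext (mul_inv_cancel_left₀ hc _)

/-- `G_n(cΛ) = c⁻ⁿ G_n(Λ)`. -/
theorem G_scale (n : ℕ) : (scale c hc L).G n = (c ^ n)⁻¹ * L.G n := by
  rw [PeriodPair.G, PeriodPair.G, ← (LatCongr_scaleEquiv c hc L).tsum_eq, ← tsum_mul_left]
  refine tsum_congr fun l => ?_
  show ((c * (l : ℂ)) ^ n)⁻¹ = (c ^ n)⁻¹ * ((l : ℂ) ^ n)⁻¹
  rw [mul_pow, mul_inv]

theorem disc_scale : disc (scale c hc L) = (c ^ 12)⁻¹ * disc L := by
  rw [disc, disc, PeriodPair.g₂, PeriodPair.g₃, PeriodPair.g₂, PeriodPair.g₃, G_scale, G_scale]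
  field_simp

end Scale

section Tau

theorem indep_ofTau (τ : ℍ) : LinearIndependent ℝ ![(1 : ℂ), (τ : ℂ)] := by
  rw [LinearIndependent.pair_iff]
  intro s t h
  have him := congrArg Complex.im h
  have hre := congrArg Complex.re h
  simp at him hre
  have ht : t = 0 := him.resolve_right τ.im_pos.ne'
  rw [ht] at hre
  simp at hre
  exact ⟨hre, ht⟩

/-- the period pair `(1, τ)`. -/
def ofTau (τ : ℍ) : PeriodPair := ⟨1, τ, indep_ofTau τ⟩

theorem LatTau_G_eq_tsum (k : ℕ) (τ : ℍ) :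
    (ofTau τ).G k = ∑' v : Fin 2 → ℤ, EisensteinSeries.eisSummand k v τ := by
  unfold PeriodPair.G
  rw [← ((ofTau τ).latticeEquivProd.symm.toEquiv).tsum_eq,
    ← ((finTwoArrowEquiv ℤ).trans (Equiv.prodComm ℤ ℤ)).tsum_eq]
  refine tsum_congr fun v => ?_
  have h := (ofTau τ).latticeEquiv_symm_apply ((finTwoArrowEquiv ℤ).trans (Equiv.prodComm ℤ ℤ) v)
  simp only [LinearEquiv.coe_toEquiv]
  rw [h]
  simp only [EisensteinSeries.eisSummand, ofTau, Equiv.trans_apply, finTwoArrowEquiv_apply,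
    Equiv.prodComm_apply, Prod.fst_swap, Prod.snd_swap, mul_one, zpow_neg, zpow_natCast]
  rw [add_comm]
  rfl

/-- `G_k(ℤ + ℤτ) = 2 ζ(k) E_k(τ)`: reindex the lattice sum by `Fin 2 → ℤ` (`L.latticeEquivProd`), `EisensteinSeries.eisSummand`, Mathlib's
`tsum_eisSummand_eq_riemannZeta_mul_eisensteinSeries` and the definition `E hk = (1/2) • eisensteinSeries_MF ..`. -/
theorem G_ofTau {k : ℕ} (hk : 3 ≤ k) (τ : ℍ) :
    (ofTau τ).G k = 2 * riemannZeta k * ModularForm.E hk τ := by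
  rw [LatTau_G_eq_tsum, tsum_eisSummand_eq_riemannZeta_mul_eisensteinSeries hk τ,
    show ModularForm.E hk τ = (1 / 2 : ℂ) • EisensteinSeries.eisensteinSeriesSIF (N := 1) 0 k τ from rfl,
    EisensteinSeries.eisensteinSeriesSIF_apply 0 k τ, smul_eq_mul]
  ring

/-- `riemannZeta_four`. -/
theorem g₂_ofTau (τ : ℍ) : (ofTau τ).g₂ = 4 * (Real.pi : ℂ) ^ 4 / 3 * ModularForm.E₄ τ := by
  unfold PeriodPair.g₂
  rw [G_ofTau (by norm_num : 3 ≤ 4) τ]
  have h : riemannZeta ((4 : ℕ) : ℂ) = (Real.pi : ℂ) ^ 4 / 90 := by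
    rw [Nat.cast_ofNat]
    exact riemannZeta_four
  rw [h]
  ring

theorem LatTau_zeta_six : riemannZeta ((6 : ℕ) : ℂ) = (Real.pi : ℂ) ^ 6 / 945 := by
  have hb : bernoulli 6 = 1 / 42 := by decide +kernel
  have h := riemannZeta_two_mul_nat (k := 3) (by norm_num)
  have e : (2 * ((3 : ℕ) : ℂ)) = ((6 : ℕ) : ℂ) := by norm_num
  rw [e] at h
  rw [h]
  norm_num [hb, Nat.factorial]
  ring

/-- `ζ(6) = π⁶/945` (`riemannZeta_two_mul_nat` / `hasSum_zeta_nat` with `bernoulli 6 = 1/42`). -/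
theorem g₃_ofTau (τ : ℍ) : (ofTau τ).g₃ = 8 * (Real.pi : ℂ) ^ 6 / 27 * ModularForm.E₆ τ := by
  unfold PeriodPair.g₃
  rw [G_ofTau (by norm_num : 3 ≤ 6) τ, LatTau_zeta_six]
  ring

/-- `ModularForm.discriminant_eq_E₄_cube_sub_E₆_sq`. -/
theorem disc_ofTau (τ : ℍ) :
    disc (ofTau τ) = (2 * (Real.pi : ℂ)) ^ 12 * ModularForm.discriminant τ := by
  unfold disc
  rw [g₂_ofTau, g₃_ofTau, ModularForm.discriminant_eq_E₄_cube_sub_E₆_sq]
  ring

theorem disc_ofTau_ne_zero (τ : ℍ) : disc (ofTau τ) ≠ 0 := by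
  rw [disc_ofTau]
  refine mul_ne_zero (pow_ne_zero _ (mul_ne_zero two_ne_zero ?_)) (ModularForm.discriminant_ne_zero τ)
  exact_mod_cast Real.pi_ne_zero

/-- `j(τ) Δ(Λ_τ) = 1728 g₂³`. -/
theorem jfun_mul_disc (τ : ℍ) : jfun τ * disc (ofTau τ) = 1728 * (ofTau τ).g₂ ^ 3 := by
  rw [disc_ofTau, g₂_ofTau, jfun]
  have h := ModularForm.discriminant_ne_zero τ
  field_simp
  ring

end Tau

section Uniformisation

/-- **Uniformisation** (`c₄, c₆ ≠ 0`, i.e. `j ≠ 0, 1728`).  `jfun_surjective` gives `τ` with `j(τ) = c₄³/Δ`.  With `a = g₂(τ)`, `b = g₃(τ)`, `g₂* = c₄/12`, `g₃* = c₆/216`: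
`a³ g₃*² = g₂*³ b²`, `a, b ≠ 0`; `μ = g₃* a/(g₂* b)` satisfies `μ² a = g₂*`, `μ³ b = g₃*`; take `c` with `c² = μ⁻¹` (`IsAlgClosed.exists_pow_nat_eq`) and `L = scale c (ofTau τ)`. -/
theorem exists_unif (W : Affine ℂ) (hΔ : W.Δ ≠ 0) (h4 : W.c₄ ≠ 0) (h6 : W.c₆ ≠ 0) :
    ∃ L : PeriodPair, Unif W L := by
  obtain ⟨τ, hτ⟩ := Fermat.Agent.S24.jfun_surjective (W.c₄ ^ 3 / W.Δ)
  have hrel := W.c_relation
  have hD := disc_ofTau_ne_zero τ
  have hj := jfun_mul_disc τ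
  have ha : (ofTau τ).g₂ = 60 * (ofTau τ).G 4 := rfl
  have hb : (ofTau τ).g₃ = 140 * (ofTau τ).G 6 := rfl
  have hDdef : disc (ofTau τ) = (ofTau τ).g₂ ^ 3 - 27 * (ofTau τ).g₃ ^ 2 := rfl
  generalize (ofTau τ).g₂ = a at ha hDdef hj
  generalize (ofTau τ).g₃ = b at hb hDdef
  rw [hτ, hDdef] at hj
  rw [hDdef] at hD
  have hj' : W.c₄ ^ 3 * (a ^ 3 - 27 * b ^ 2) = 1728 * a ^ 3 * W.Δ := by
    rw [div_mul_eq_mul_div, div_eq_iff hΔ] at hj
    exact hj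
  have key : 27 * W.c₄ ^ 3 * b ^ 2 = a ^ 3 * W.c₆ ^ 2 := by
    linear_combination -hj' - a ^ 3 * hrel
  have ha0 : a ≠ 0 := by
    intro h0
    have h1 : W.c₄ ^ 3 * (a ^ 3 - 27 * b ^ 2) = 0 := by rw [hj', h0]; ring
    exact mul_ne_zero (pow_ne_zero 3 h4) hD h1
  have hb0 : b ≠ 0 := by
    intro h0
    have h1 : a ^ 3 * W.c₆ ^ 2 = 0 := by rw [← key, h0]; ring
    exact mul_ne_zero (pow_ne_zero 3 ha0) (pow_ne_zero 2 h6) h1
  obtain ⟨μ, hμ⟩ : ∃ μ : ℂ, μ = W.c₆ * a / (18 * W.c₄ * b) := ⟨_, rfl⟩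
  have hμ0 : μ ≠ 0 := by
    rw [hμ]
    exact div_ne_zero (mul_ne_zero h6 ha0) (mul_ne_zero (mul_ne_zero (by norm_num) h4) hb0)
  have hμ2 : μ ^ 2 * a = W.c₄ / 12 := by
    rw [hμ]
    field_simp
    linear_combination (-12 : ℂ) * key
  have hμ3 : μ ^ 3 * b = W.c₆ / 216 := by
    rw [hμ]
    field_simp
    linear_combination (-216 : ℂ) * key
  obtain ⟨c, hc⟩ := IsAlgClosed.exists_pow_nat_eq μ⁻¹ (n := 2) (by norm_num)
  have hc0 : c ≠ 0 := by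
    rintro rfl
    rw [zero_pow (by norm_num)] at hc
    exact inv_ne_zero hμ0 hc.symm
  have hc4 : (c ^ 4)⁻¹ = μ ^ 2 := by
    rw [show c ^ 4 = (c ^ 2) ^ 2 by ring, hc, inv_pow, inv_inv]
  have hc6 : (c ^ 6)⁻¹ = μ ^ 3 := by
    rw [show c ^ 6 = (c ^ 2) ^ 3 by ring, hc, inv_pow, inv_inv]
  refine ⟨scale c hc0 (ofTau τ), ?_, ?_, hΔ⟩
  · rw [PeriodPair.g₂, G_scale, hc4]
    linear_combination (-12 : ℂ) * hμ2 + 12 * μ ^ 2 * ha
  · rw [PeriodPair.g₃, G_scale, hc6]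
    linear_combination (-216 : ℂ) * hμ3 + 216 * μ ^ 3 * hb

end Uniformisation

section Basis

/-- (task A-Lat-Basis) unimodular change of basis: independence. -/
theorem LatBasis_indep (L : PeriodPair) (a b c e δ : ℤ) (h : (a * e - b * c) * δ = 1) :
    LinearIndependent ℝ ![(a : ℂ) * L.ω₁ + b * L.ω₂, (c : ℂ) * L.ω₁ + e * L.ω₂] := by
  rw [LinearIndependent.pair_iff]
  intro s t hst
  obtain ⟨h2, h3⟩ := LinearIndependent.pair_iff.mp L.indep (s * a + t * c) (s * b + t * e) (by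
    simp only [Complex.real_smul] at hst ⊢
    push_cast
    linear_combination hst)
  have hR : ((a : ℝ) * e - b * c) * δ = 1 := by exact_mod_cast h
  constructor
  · linear_combination ((δ : ℝ) * e) * h2 - ((δ : ℝ) * c) * h3 - s * hR
  · linear_combination ((δ : ℝ) * a) * h3 - ((δ : ℝ) * b) * h2 - t * hR

/-- (task A-Lat-Basis) unimodular change of basis: same lattice. -/
theorem LatBasis_lattice (L : PeriodPair) (a b c e δ : ℤ) (h : (a * e - b * c) * δ = 1) :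
    (⟨_, _, LatBasis_indep L a b c e δ h⟩ : PeriodPair).lattice = L.lattice := by
  have hC : ((a : ℂ) * e - b * c) * δ = 1 := by exact_mod_cast h
  apply le_antisymm
  · rw [PeriodPair.lattice, Submodule.span_le]
    rintro x (rfl | rfl)
    · exact mem_lattice.mpr ⟨a, b, rfl⟩
    · exact mem_lattice.mpr ⟨c, e, rfl⟩
  · conv_lhs => rw [PeriodPair.lattice]
    rw [Submodule.span_le]
    rintro x (rfl | rfl)
    · refine mem_lattice.mpr ⟨δ * e, -δ * b, ?_⟩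
      push_cast
      linear_combination L.ω₁ * hC
    · refine mem_lattice.mpr ⟨-δ * c, δ * a, ?_⟩
      push_cast
      linear_combination L.ω₂ * hC

/-- (task A-Lat-Basis) the ratio of the periods is not real. -/
theorem LatBasis_im_ne_zero (L : PeriodPair) : (L.ω₂ / L.ω₁).im ≠ 0 := by
  intro h
  have h1 : L.ω₁ ≠ 0 := L.indep.ne_zero 0
  have h2 : L.ω₂ = ((L.ω₂ / L.ω₁).re : ℂ) * L.ω₁ := by
    have : L.ω₂ / L.ω₁ = ((L.ω₂ / L.ω₁).re : ℂ) := by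
      apply Complex.ext <;> simp [h]
    rw [← this]
    field_simp
  have h3 := LinearIndependent.pair_iff.mp L.indep ((L.ω₂ / L.ω₁).re) (-1) (by
    simp only [Complex.real_smul]
    rw [← h2]
    push_cast
    ring)
  exact absurd h3.2 (by norm_num)

/-- **Adapted basis.**  `z₀ ∉ Λ`, `p z₀ ∈ Λ`, `p` prime.  Write `p z₀ = a ω₁ + b ω₂`, `g = gcd(a,b)` (prime to `p`), `(a,b) = g (a',b')`, Bézout `a' e - b' c = 1`;
`ω₁* = a'ω₁ + b'ω₂`, `ω₂* = ±(c ω₁ + e ω₂)` (sign such that `Im(ω₂*/ω₁*) > 0`). -/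
theorem exists_adapted_basis (L : PeriodPair) {p : ℕ} (hp : p.Prime) {z₀ : ℂ} (h0 : z₀ ∉ L.lattice)
    (h1 : (p : ℂ) * z₀ ∈ L.lattice) :
    ∃ (L₁ : PeriodPair) (d : ℕ), L₁.lattice = L.lattice ∧ 0 < (L₁.ω₂ / L₁.ω₁).im ∧ ¬ p ∣ d ∧
      z₀ - d * L₁.ω₁ / p ∈ L.lattice := by
  obtain ⟨a, b, hab⟩ := mem_lattice.mp h1
  have hp0 : (p : ℂ) ≠ 0 := by exact_mod_cast hp.ne_zero
  have hg : ¬ p ∣ Int.gcd a b := by
    intro hdvd
    have hdvd' : (p : ℤ) ∣ (Int.gcd a b : ℤ) := by exact_mod_cast hdvd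
    obtain ⟨a', ha'⟩ := hdvd'.trans (Int.gcd_dvd_left a b)
    obtain ⟨b', hb'⟩ := hdvd'.trans (Int.gcd_dvd_right a b)
    apply h0
    refine mem_lattice.mpr ⟨a', b', ?_⟩
    apply mul_left_cancel₀ hp0
    rw [← hab, ha', hb']
    push_cast
    ring
  have hg0 : 0 < Int.gcd a b := by
    rcases Nat.eq_zero_or_pos (Int.gcd a b) with h | h
    · exact absurd (h ▸ dvd_zero p) hg
    · exact h
  obtain ⟨a', b', hcop, ha', hb'⟩ := Int.exists_gcd_one hg0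
  obtain ⟨u, v, huv⟩ := Int.isCoprime_iff_gcd_eq_one.mpr hcop
  have hz : ∀ w : ℂ, w = (a' : ℂ) * L.ω₁ + b' * L.ω₂ →
      z₀ - (Int.gcd a b : ℕ) * w / p ∈ L.lattice := by
    rintro w rfl
    have haC : (a : ℂ) = a' * (Int.gcd a b : ℕ) := by
      conv_lhs => rw [ha']
      push_cast
      rfl
    have hbC : (b : ℂ) = b' * (Int.gcd a b : ℕ) := by
      conv_lhs => rw [hb']
      push_cast
      rfl
    have : z₀ - (Int.gcd a b : ℕ) * ((a' : ℂ) * L.ω₁ + b' * L.ω₂) / p = 0 := by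
      rw [sub_eq_zero, eq_div_iff hp0, mul_comm z₀, ← hab, haC, hbC]
      ring
    rw [this]
    exact zero_mem _
  have hd1 : (a' * u - b' * (-v)) * 1 = 1 := by linear_combination huv
  have hd2 : (a' * (-u) - b' * v) * (-1) = 1 := by linear_combination huv
  rcases lt_or_gt_of_ne (LatBasis_im_ne_zero ⟨_, _, LatBasis_indep L a' b' (-v) u 1 hd1⟩) with
    hneg | hpos
  · refine ⟨⟨_, _, LatBasis_indep L a' b' v (-u) (-1) hd2⟩, Int.gcd a b,
      LatBasis_lattice L a' b' v (-u) (-1) hd2, ?_, hg, hz _ rfl⟩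
    simp only at hneg ⊢
    have : ((v : ℂ) * L.ω₁ + ((-u : ℤ) : ℂ) * L.ω₂) / ((a' : ℂ) * L.ω₁ + b' * L.ω₂)
        = -((((-v : ℤ) : ℂ) * L.ω₁ + (u : ℂ) * L.ω₂) / ((a' : ℂ) * L.ω₁ + b' * L.ω₂)) := by
      push_cast
      ring
    rw [this, Complex.neg_im]
    linarith
  · exact ⟨⟨_, _, LatBasis_indep L a' b' (-v) u 1 hd1⟩, Int.gcd a b,
      LatBasis_lattice L a' b' (-v) u 1 hd1, hpos, hg, hz _ rfl⟩

/-- `L = ω₁ (1, τ)`. -/
theorem lattice_eq_scale_ofTau (L : PeriodPair) (h1 : L.ω₁ ≠ 0) (τ : ℍ) (hτ : (τ : ℂ) = L.ω₂ / L.ω₁) :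
    L.lattice = (scale L.ω₁ h1 (ofTau τ)).lattice := by
  have e1 : (scale L.ω₁ h1 (ofTau τ)).ω₁ = L.ω₁ := mul_one _
  have e2 : (scale L.ω₁ h1 (ofTau τ)).ω₂ = L.ω₂ := by
    show L.ω₁ * (τ : ℂ) = L.ω₂
    rw [hτ]
    field_simp
  rw [PeriodPair.lattice, PeriodPair.lattice, e1, e2]

theorem ω₁_ne_zero (L : PeriodPair) : L.ω₁ ≠ 0 :=
  L.indep.ne_zero 0

/-- `(ω₁/p, ω₂) = (ω₁/p) (1, pτ)`. -/
theorem lattice_divFst_eq_scale (L : PeriodPair) (p : ℕ) [NeZero p] (h1 : L.ω₁ / p ≠ 0) (τ : ℍ)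
    (hτ : (τ : ℂ) = L.ω₂ / L.ω₁) :
    (divFst L p).lattice = (scale (L.ω₁ / p) h1 (ofTau (mulH p τ))).lattice := by
  have hp0 : (p : ℂ) ≠ 0 := by exact_mod_cast NeZero.ne p
  have hω : L.ω₁ ≠ 0 := L.indep.ne_zero 0
  have e1 : (scale (L.ω₁ / p) h1 (ofTau (mulH p τ))).ω₁ = (divFst L p).ω₁ := mul_one _
  have e2 : (scale (L.ω₁ / p) h1 (ofTau (mulH p τ))).ω₂ = (divFst L p).ω₂ := by
    show L.ω₁ / p * ((p : ℂ) * (τ : ℂ)) = L.ω₂
    rw [hτ]
    field_simp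
  rw [PeriodPair.lattice, PeriodPair.lattice, e1, e2]

theorem disc_congr {L L' : PeriodPair} (h : L.lattice = L'.lattice) : disc L = disc L' := by
  rw [disc, disc, PeriodPair.g₂, PeriodPair.g₃, PeriodPair.g₂, PeriodPair.g₃, G_congr h,
    G_congr h]

/-- multiplication by `d` (prime to `p`) permutes `{1, …, p-1}` mod `p`; `℘'` is `Λ`-periodic. -/
theorem prod_wp'_perm (L : PeriodPair) {p : ℕ} [NeZero p] (hp : p.Prime) {d : ℕ} (hd : ¬ p ∣ d) :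
    ∏ k ∈ Finset.Ico 1 p, ℘'[L] (k * (d * L.ω₁ / p)) = ∏ k ∈ Finset.Ico 1 p, ℘'[L] (tp L p k) := by
  have hp0 : (p : ℂ) ≠ 0 := by exact_mod_cast hp.ne_zero
  have hmaps : ∀ k ∈ Finset.Ico 1 p, (k * d) % p ∈ Finset.Ico 1 p := by
    intro k hk
    rw [Finset.mem_Ico] at hk ⊢
    refine ⟨?_, Nat.mod_lt _ hp.pos⟩
    rw [Nat.one_le_iff_ne_zero]
    intro h0
    rcases (hp.dvd_mul).mp (Nat.dvd_of_mod_eq_zero h0) with h | h
    · exact absurd (Nat.le_of_dvd (by omega) h) (by omega)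
    · exact hd h
  have hinj : Set.InjOn (fun k : ℕ => (k * d) % p) (Finset.Ico 1 p : Finset ℕ) := by
    intro k hk k' hk' hkk
    rw [Finset.mem_coe, Finset.mem_Ico] at hk hk'
    have h1 : k * d ≡ k' * d [MOD p] := hkk
    have hcop : Nat.gcd p d = 1 := (Nat.Prime.coprime_iff_not_dvd hp).mpr hd
    have h2 : k ≡ k' [MOD p] := Nat.ModEq.cancel_right_of_coprime hcop h1
    exact Nat.ModEq.eq_of_lt_of_lt h2 hk.2 hk'.2
  have hsurj : Set.SurjOn (fun k : ℕ => (k * d) % p) (Finset.Ico 1 p : Finset ℕ)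
      (Finset.Ico 1 p : Finset ℕ) :=
    Finset.surjOn_of_injOn_of_card_le _ hmaps hinj le_rfl
  refine Finset.prod_nbij (fun k : ℕ => (k * d) % p) hmaps hinj hsurj ?_
  intro k _
  have h1 : ((k * d : ℕ) : ℂ) = ((k * d) % p : ℕ) + (p : ℂ) * ((k * d) / p : ℕ) := by
    exact_mod_cast (Nat.mod_add_div (k * d) p).symm
  have hl : (((k * d) / p : ℕ) : ℂ) * L.ω₁ ∈ L.lattice :=
    mem_lattice.mpr ⟨((k * d) / p : ℕ), 0, by rw [Int.cast_natCast, Int.cast_zero]; ring⟩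
  have h2 : (k : ℂ) * (d * L.ω₁ / p)
      = tp L p ((k * d) % p) + ((⟨_, hl⟩ : L.lattice) : ℂ) := by
    unfold tp
    push_cast at h1 ⊢
    field_simp
    linear_combination L.ω₁ * h1
  rw [h2, L.derivWeierstrassP_add_coe]

end Basis

end

end Fermat.Agent.S15.A.Wp
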