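import Fermat.Agent.S15.A.Wp.Lattice

/-!
# S15 / A / Wp : the analytic main theorem
-/

set_option autoImplicit false

open Filter Topology PeriodPair WeierstrassCurve WeierstrassCurve.Affine UpperHalfPlane

namespace Fermat.Agent.S15.A.Wp

open Fermat.Agent.S24 (jfun mulH)
open Fermat.Agent.S05 (xc yc)

noncomputable section

/-- SPADE in terms of `τ = ω₂/ω₁`:  `Δ(τ) disc(L)^(p-1) = p¹² (∏ ℘'(kω₁/p))⁴ Δ(pτ)`.
Proof: `disc L = ω₁⁻¹² (2π)¹² Δ(τ)`, `disc L' = (ω₁/p)⁻¹² (2π)¹² Δ(pτ)` (`disc_congr`, `lattice_eq_scale_ofTau`, `lattice_divFst_eq_scale`, `disc_scale`, `disc_ofTau`), `spade`, `disc L ≠ 0`. -/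
theorem spade_tau {W : Affine ℂ} {L : PeriodPair} (h : Unif W L) (p : ℕ) [NeZero p] (hodd : Odd p)
    (τ : ℍ) (hτ : (τ : ℂ) = L.ω₂ / L.ω₁) :
    ModularForm.discriminant τ * disc L ^ (p - 1) =
      (p : ℂ) ^ 12 * (∏ k ∈ Finset.Ico 1 p, ℘'[L] (tp L p k)) ^ 4 *
        ModularForm.discriminant (mulH p τ) := by
  have hp0 : (p : ℂ) ≠ 0 := by exact_mod_cast NeZero.ne p
  have hω : L.ω₁ ≠ 0 := ω₁_ne_zero L
  have hωp : L.ω₁ / p ≠ 0 := div_ne_zero hω hp0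
  have hπ : (2 * (Real.pi : ℂ)) ^ 12 ≠ 0 :=
    pow_ne_zero _ (mul_ne_zero two_ne_zero (by exact_mod_cast Real.pi_ne_zero))
  have hD : disc L = (L.ω₁ ^ 12)⁻¹ * ((2 * (Real.pi : ℂ)) ^ 12 * ModularForm.discriminant τ) := by
    rw [disc_congr (lattice_eq_scale_ofTau L hω τ hτ), disc_scale, disc_ofTau]
  have hD' : disc (divFst L p) =
      ((L.ω₁ / p) ^ 12)⁻¹ * ((2 * (Real.pi : ℂ)) ^ 12 * ModularForm.discriminant (mulH p τ)) := by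
    rw [disc_congr (lattice_divFst_eq_scale L p hωp τ hτ), disc_scale, disc_ofTau]
  have hs := spade (L := L) (p := p) h hodd
  have hpp : disc L ^ p = disc L * disc L ^ (p - 1) := by
    rw [← pow_succ']
    congr 1
    have := Nat.pos_of_ne_zero (NeZero.ne p)
    omega
  have hc : (L.ω₁ ^ 12)⁻¹ * (2 * (Real.pi : ℂ)) ^ 12 ≠ 0 :=
    mul_ne_zero (inv_ne_zero (pow_ne_zero _ hω)) hπ
  apply mul_left_cancel₀ hc
  have e1 : (L.ω₁ ^ 12)⁻¹ * (2 * (Real.pi : ℂ)) ^ 12 *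
      (ModularForm.discriminant τ * disc L ^ (p - 1)) = disc L * disc L ^ (p - 1) := by
    have e2 : (L.ω₁ ^ 12)⁻¹ * (2 * (Real.pi : ℂ)) ^ 12 *
        (ModularForm.discriminant τ * disc L ^ (p - 1)) =
        ((L.ω₁ ^ 12)⁻¹ * ((2 * (Real.pi : ℂ)) ^ 12 * ModularForm.discriminant τ)) *
          disc L ^ (p - 1) := by ring
    rw [e2, ← hD]
  rw [e1, ← hpp, ← hs, hD']
  field_simp

/-- `j(τ) W.Δ = c₄³` for `τ = ω₂/ω₁`. -/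
theorem jfun_tau {W : Affine ℂ} {L : PeriodPair} (h : Unif W L) (τ : ℍ)
    (hτ : (τ : ℂ) = L.ω₂ / L.ω₁) : jfun τ * W.Δ = W.c₄ ^ 3 := by
  have hω : L.ω₁ ≠ 0 := ω₁_ne_zero L
  have hD : disc L = (L.ω₁ ^ 12)⁻¹ * disc (ofTau τ) := by
    rw [disc_congr (lattice_eq_scale_ofTau L hω τ hτ), disc_scale]
  have hg : L.g₂ = (L.ω₁ ^ 4)⁻¹ * (ofTau τ).g₂ := by
    rw [PeriodPair.g₂, PeriodPair.g₂, G_congr (lattice_eq_scale_ofTau L hω τ hτ), G_scale]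
    ring
  have hΔ : W.Δ = disc L := h.disc
  rw [hΔ, hD, h.c₄, hg]
  have hj := jfun_mul_disc τ
  calc jfun τ * ((L.ω₁ ^ 12)⁻¹ * disc (ofTau τ))
      = (L.ω₁ ^ 12)⁻¹ * (jfun τ * disc (ofTau τ)) := by ring
    _ = (L.ω₁ ^ 12)⁻¹ * (1728 * (ofTau τ).g₂ ^ 3) := by rw [hj]
    _ = (12 * ((L.ω₁ ^ 4)⁻¹ * (ofTau τ).g₂)) ^ 3 := by ring

/-- **Analytic main theorem.**  `exists_unif` gives `L₀`; `Phi_surjective` gives `z₀` with `Phi z₀ = Q`; `p z₀ ∈ Λ`, `z₀ ∉ Λ` (`PhiHom`, `Phi_eq_zero_iff`, `addOrderOf Q = p`);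
`exists_adapted_basis` gives `L₁`, `d`; `Unif.congr`; `τ = ω₂/ω₁`.  `yc (k • Q) = ℘'(k z₀) = ℘'(k d ω₁/p)` (`yc_Phi`, `map_nsmul`, periodicity), `prod_wp'_perm`, `spade_tau`, `jfun_tau`, `Unif.disc`. -/
theorem exists_tau (W : Affine ℂ) (hΔ : W.Δ ≠ 0) (h4 : W.c₄ ≠ 0) (h6 : W.c₆ ≠ 0) {p : ℕ} [NeZero p]
    (hp : p.Prime) (hp2 : p ≠ 2) (Q : W.Point) (hQ : addOrderOf Q = p) :
    ∃ τ : ℍ, jfun τ * W.Δ = W.c₄ ^ 3 ∧
      ModularForm.discriminant τ * W.Δ ^ (p - 1) =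
        (p : ℂ) ^ 12 * (∏ k ∈ Finset.Ico 1 p, yc (k • Q)) ^ 4 *
          ModularForm.discriminant (mulH p τ) := by
  obtain ⟨L₀, h₀⟩ := exists_unif W hΔ h4 h6
  obtain ⟨z₀, hz₀⟩ := Phi_surjective h₀ Q
  have hnsmul : ∀ (L : PeriodPair) (h : Unif W L) (k : ℕ) (z : ℂ),
      Phi h ((k : ℂ) * z) = k • Phi h z := by
    intro L h k z
    have := map_nsmul (PhiHom h) k z
    simpa [nsmul_eq_mul] using this
  have h0 : z₀ ∉ L₀.lattice := by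
    intro hmem
    have : Q = 0 := by rw [← hz₀]; exact (Phi_eq_zero_iff h₀ z₀).2 hmem
    rw [this, addOrderOf_zero] at hQ
    exact hp.one_lt.ne hQ
  have h1 : (p : ℂ) * z₀ ∈ L₀.lattice := by
    rw [← Phi_eq_zero_iff h₀, hnsmul, hz₀, ← hQ]
    exact addOrderOf_nsmul_eq_zero Q
  obtain ⟨L₁, d, hlat, him, hd, hz⟩ := exists_adapted_basis L₀ hp h0 h1
  have h₁ : Unif W L₁ := h₀.congr hlat.symm
  let τ : ℍ := ⟨L₁.ω₂ / L₁.ω₁, him⟩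
  have hτ : (τ : ℂ) = L₁.ω₂ / L₁.ω₁ := rfl
  refine ⟨τ, jfun_tau h₁ τ hτ, ?_⟩
  have hodd : Odd p := hp.odd_of_ne_two hp2
  have hs := spade_tau h₁ p hodd τ hτ
  have hΔd : W.Δ = disc L₁ := h₁.disc
  rw [hΔd, hs]
  congr 3
  rw [← prod_wp'_perm L₁ hp hd]
  refine Finset.prod_congr rfl fun k _ => ?_
  rw [← hz₀, ← hnsmul, yc_Phi, wp'_congr hlat.symm]
  have hmem : (k : ℂ) * (z₀ - d * L₁.ω₁ / p) ∈ L₁.lattice := by
    rw [hlat]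
    have := L₀.lattice.smul_mem (k : ℤ) hz
    simpa [zsmul_eq_mul] using this
  have := L₁.derivWeierstrassP_add_coe ((k : ℂ) * (d * L₁.ω₁ / p)) ⟨_, hmem⟩
  rw [← this]
  congr 1
  simp only
  ring

end

end Fermat.Agent.S15.A.Wp
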