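import Fermat.Agent.S15.A.Wp.Hom

/-!
# S15 / A / Wp : the formula `Δ(Λ') ∏_{P ∈ Λ'/Λ, P ≠ 0} ℘'_Λ(P)⁴ = Δ(Λ)^p`   (SPADE)

`L = (ω₁, ω₂)`, `L' = L.divFst p = (ω₁/p, ω₂)`, `p` odd, `P k = k ω₁ / p`.
`T 0 = ω₁/2`, `T 1 = ω₂/2`, `T 2 = (ω₁+ω₂)/2`, `e j = ℘_L(T j)`, `e' j = ℘_{L'}(T j)`.

(HEART)  `(℘_{L'}(z) - e' j) ∏_{0<k<p} (℘_L(P k) - e j) = ∏_{0≤k<p} (℘_L(z + P k) - e j)`   for `z ∉ Λ'`.
-/

set_option autoImplicit false

open Filter Topology PeriodPair WeierstrassCurve WeierstrassCurve.Affine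

namespace Fermat.Agent.S15.A.Wp

noncomputable section

/-- `g₂³ - 27 g₃²`. -/
def disc (L : PeriodPair) : ℂ := L.g₂ ^ 3 - 27 * L.g₃ ^ 2

theorem indep_divFst (L : PeriodPair) (p : ℕ) (hp : p ≠ 0) :
    LinearIndependent ℝ ![L.ω₁ / p, L.ω₂] := by
  rw [LinearIndependent.pair_iff]
  intro s t hst
  have hp' : (p : ℝ) ≠ 0 := Nat.cast_ne_zero.2 hp
  have hpc : (p : ℂ) ≠ 0 := Nat.cast_ne_zero.2 hp
  have h := LinearIndependent.pair_iff.mp L.indep (s / p) t (by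
    rw [← hst]
    simp only [Complex.real_smul, Complex.ofReal_div, Complex.ofReal_natCast]
    field_simp)
  refine ⟨?_, h.2⟩
  have h1 := h.1
  rwa [div_eq_zero_iff, or_iff_left hp'] at h1

/-- `(ω₁/p, ω₂)`. -/
def divFst (L : PeriodPair) (p : ℕ) [NeZero p] : PeriodPair :=
  ⟨L.ω₁ / p, L.ω₂, indep_divFst L p (NeZero.ne p)⟩

variable (L : PeriodPair) (p : ℕ) [NeZero p]

/-- the points of `Λ'/Λ`. -/
def tp (k : ℕ) : ℂ := k * L.ω₁ / p

/-- the half periods. -/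
def hp (j : Fin 3) : ℂ := ![L.ω₁ / 2, L.ω₂ / 2, (L.ω₁ + L.ω₂) / 2] j

/-- `e j = ℘(T j)`. -/
def ee (j : Fin 3) : ℂ := ℘[L] (hp L j)

section Lattice

/-- (helper, `A-Spade-Lat`) `(a ω₁ + b ω₂)/d ∈ Λ ↔ d ∣ a, b`. -/
theorem SpadeLat_mem_iff (L : PeriodPair) (a b : ℤ) (d : ℕ) (hd : d ≠ 0) :
    ((a : ℂ) * L.ω₁ + b * L.ω₂) / d ∈ L.lattice ↔ (d : ℤ) ∣ a ∧ (d : ℤ) ∣ b := by
  have hdc : (d : ℂ) ≠ 0 := Nat.cast_ne_zero.2 hd
  constructor
  · intro h
    obtain ⟨m, n, e⟩ := mem_lattice.mp h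
    rw [eq_div_iff hdc] at e
    have := LinearIndependent.pair_iff.mp L.indep ((d * m - a : ℤ) : ℝ) ((d * n - b : ℤ) : ℝ) (by
      simp only [Complex.real_smul, Complex.ofReal_intCast]
      push_cast
      linear_combination e)
    obtain ⟨h1, h2⟩ := this
    rw [Int.cast_eq_zero] at h1 h2
    exact ⟨⟨m, by omega⟩, ⟨n, by omega⟩⟩
  · rintro ⟨⟨m, rfl⟩, ⟨n, rfl⟩⟩
    refine mem_lattice.mpr ⟨m, n, ?_⟩
    push_cast
    field_simp

/-- (helper, `A-Spade-Lat`) -/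
theorem SpadeLat_tp_mem (k : ℕ) : tp L p k ∈ (divFst L p).lattice := by
  refine mem_lattice.mpr ⟨k, 0, ?_⟩
  change ((k : ℤ) : ℂ) * (L.ω₁ / p) + ((0 : ℤ) : ℂ) * L.ω₂ = _
  rw [tp]
  push_cast
  ring

theorem lattice_le_divFst : L.lattice ≤ (divFst L p).lattice := by
  intro z hz
  obtain ⟨m, n, rfl⟩ := mem_lattice.mp hz
  refine mem_lattice.mpr ⟨m * p, n, ?_⟩
  have hpc : (p : ℂ) ≠ 0 := Nat.cast_ne_zero.2 (NeZero.ne p)
  change ((m * p : ℤ) : ℂ) * (L.ω₁ / p) + n * L.ω₂ = _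
  push_cast
  field_simp

theorem mem_lattice_divFst_iff (z : ℂ) :
    z ∈ (divFst L p).lattice ↔ ∃ k < p, z - tp L p k ∈ L.lattice := by
  have hp0 : p ≠ 0 := NeZero.ne p
  have hpc : (p : ℂ) ≠ 0 := Nat.cast_ne_zero.2 hp0
  constructor
  · intro hz
    obtain ⟨m, n, e⟩ := mem_lattice.mp hz
    change (m : ℂ) * (L.ω₁ / p) + n * L.ω₂ = z at e
    have hpz : (p : ℤ) ≠ 0 := Int.natCast_ne_zero.2 hp0
    have h0 : 0 ≤ m % p := Int.emod_nonneg m hpz
    have h1 : m % p < p := Int.emod_lt_of_pos m (by omega)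
    refine ⟨(m % p).toNat, by omega, mem_lattice.mpr ⟨m / p, n, ?_⟩⟩
    have h2 : (((m % p).toNat : ℕ) : ℂ) = ((m % p : ℤ) : ℂ) := by
      rw [← Int.cast_natCast, Int.toNat_of_nonneg h0]
    have h3 : (m : ℂ) = (p : ℂ) * ((m / p : ℤ) : ℂ) + ((m % p : ℤ) : ℂ) := by
      have := Int.mul_ediv_add_emod m p
      exact_mod_cast this.symm
    rw [← e, tp, h2, h3]
    field_simp
    ring
  · rintro ⟨k, -, hk⟩
    have := add_mem (lattice_le_divFst L p hk) (SpadeLat_tp_mem L p k)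
    rwa [sub_add_cancel] at this

theorem tp_mem_divFst (k : ℕ) : tp L p k ∈ (divFst L p).lattice := by
  exact SpadeLat_tp_mem L p k

/-- `a ω₁ + b ω₂ ∈ Λ ↔ a, b ∈ ℤ` for rational `a b` is Mathlib's `mul_ω₁_add_mul_ω₂_mem_lattice`. -/
theorem tp_mem_iff (k : ℕ) : tp L p k ∈ L.lattice ↔ p ∣ k := by
  have h := SpadeLat_mem_iff L k 0 p (NeZero.ne p)
  have e : ((k : ℤ) : ℂ) * L.ω₁ + ((0 : ℤ) : ℂ) * L.ω₂ = k * L.ω₁ := by push_cast; ring
  rw [e] at h
  rw [tp, h, Int.natCast_dvd_natCast]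
  simp

theorem tp_add_mem_iff (k l : ℕ) : tp L p k + tp L p l ∈ L.lattice ↔ p ∣ k + l := by
  rw [← tp_mem_iff L p (k + l)]
  have : tp L p k + tp L p l = tp L p (k + l) := by
    simp only [tp]
    push_cast
    ring
  rw [this]

/-- (helper, `A-Spade-Lat`) coordinates of the half periods. -/
def SpadeLat_a (j : Fin 3) : ℤ := ![1, 0, 1] j
/-- (helper, `A-Spade-Lat`) coordinates of the half periods. -/
def SpadeLat_b (j : Fin 3) : ℤ := ![0, 1, 1] j

/-- (helper, `A-Spade-Lat`) -/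
theorem SpadeLat_hp (L : PeriodPair) (j : Fin 3) :
    hp L j = ((SpadeLat_a j : ℂ) * L.ω₁ + (SpadeLat_b j : ℂ) * L.ω₂) / 2 := by
  fin_cases j <;> simp [hp, SpadeLat_a, SpadeLat_b]

/-- (helper, `A-Spade-Lat`) -/
theorem SpadeLat_ab (j : Fin 3) :
    (SpadeLat_a j = 1 ∧ SpadeLat_b j = 0) ∨ (SpadeLat_a j = 0 ∧ SpadeLat_b j = 1) ∨
      (SpadeLat_a j = 1 ∧ SpadeLat_b j = 1) := by
  fin_cases j <;> simp [SpadeLat_a, SpadeLat_b]

/-- (helper, `A-Spade-Lat`) -/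
theorem SpadeLat_ab_inj {i j : Fin 3} (h1 : SpadeLat_a i = SpadeLat_a j)
    (h2 : SpadeLat_b i = SpadeLat_b j) : i = j := by
  fin_cases i <;> fin_cases j <;> simp_all [SpadeLat_a, SpadeLat_b]

theorem hp_notMem (j : Fin 3) : hp L j ∉ L.lattice := by
  have h := SpadeLat_mem_iff L (SpadeLat_a j) (SpadeLat_b j) 2 (by norm_num)
  rw [SpadeLat_hp]
  push_cast at h
  rw [h]
  rcases SpadeLat_ab j with ⟨h1, h2⟩ | ⟨h1, h2⟩ | ⟨h1, h2⟩ <;> rw [h1, h2] <;> omega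

theorem two_hp_mem (j : Fin 3) : 2 * hp L j ∈ L.lattice := by
  refine mem_lattice.mpr ⟨SpadeLat_a j, SpadeLat_b j, ?_⟩
  rw [SpadeLat_hp]
  ring

theorem hp_sub_notMem {i j : Fin 3} (hij : i ≠ j) : hp L i - hp L j ∉ L.lattice := by
  have h := SpadeLat_mem_iff L (SpadeLat_a i - SpadeLat_a j) (SpadeLat_b i - SpadeLat_b j) 2
    (by norm_num)
  have e : hp L i - hp L j = (((SpadeLat_a i - SpadeLat_a j : ℤ) : ℂ) * L.ω₁ +
      ((SpadeLat_b i - SpadeLat_b j : ℤ) : ℂ) * L.ω₂) / (2 : ℕ) := by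
    rw [SpadeLat_hp, SpadeLat_hp]
    push_cast
    ring
  rw [e, h]
  rintro ⟨h1, h2⟩
  apply hij
  apply SpadeLat_ab_inj
  · rcases SpadeLat_ab i with ⟨a1, a2⟩ | ⟨a1, a2⟩ | ⟨a1, a2⟩ <;>
      rcases SpadeLat_ab j with ⟨b1, b2⟩ | ⟨b1, b2⟩ | ⟨b1, b2⟩ <;> rw [a1, b1] at h1 ⊢ <;> omega
  · rcases SpadeLat_ab i with ⟨a1, a2⟩ | ⟨a1, a2⟩ | ⟨a1, a2⟩ <;>
      rcases SpadeLat_ab j with ⟨b1, b2⟩ | ⟨b1, b2⟩ | ⟨b1, b2⟩ <;> rw [a2, b2] at h2 ⊢ <;> omega

theorem hp_notMem_divFst (hodd : Odd p) (j : Fin 3) : hp L j ∉ (divFst L p).lattice := by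
  have hpc : (p : ℂ) ≠ 0 := Nat.cast_ne_zero.2 (NeZero.ne p)
  have h := SpadeLat_mem_iff (divFst L p) (p * SpadeLat_a j) (SpadeLat_b j) 2 (by norm_num)
  have e : hp L j = (((p * SpadeLat_a j : ℤ) : ℂ) * (divFst L p).ω₁ +
      ((SpadeLat_b j : ℤ) : ℂ) * (divFst L p).ω₂) / (2 : ℕ) := by
    change hp L j = (((p * SpadeLat_a j : ℤ) : ℂ) * (L.ω₁ / p) +
      ((SpadeLat_b j : ℤ) : ℂ) * L.ω₂) / (2 : ℕ)
    rw [SpadeLat_hp]
    push_cast
    field_simp
  rw [e, h]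
  obtain ⟨m, hm⟩ := hodd
  rintro ⟨h1, h2⟩
  rcases SpadeLat_ab j with ⟨a1, a2⟩ | ⟨a1, a2⟩ | ⟨a1, a2⟩ <;> rw [a1] at h1 <;> rw [a2] at h2 <;>
    push_cast at h1 h2 <;> omega

/-- `T j + P k ∉ Λ`, and `T i + P k ≢ ± T j`... : all we need is below. -/
theorem hp_add_tp_notMem (hodd : Odd p) (j : Fin 3) (k : ℕ) : hp L j + tp L p k ∉ L.lattice := by
  have hp0 : p ≠ 0 := NeZero.ne p
  have hpc : (p : ℂ) ≠ 0 := Nat.cast_ne_zero.2 hp0
  have h := SpadeLat_mem_iff L (p * SpadeLat_a j + 2 * k) (p * SpadeLat_b j) (2 * p) (by omega)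
  have e : hp L j + tp L p k = (((p * SpadeLat_a j + 2 * k : ℤ) : ℂ) * L.ω₁ +
      ((p * SpadeLat_b j : ℤ) : ℂ) * L.ω₂) / ((2 * p : ℕ) : ℂ) := by
    rw [SpadeLat_hp, tp]
    push_cast
    field_simp
    ring
  rw [e, h]
  obtain ⟨m, hm⟩ := hodd
  rintro ⟨⟨u, hu⟩, ⟨w, hw⟩⟩
  push_cast at hu hw
  rcases SpadeLat_ab j with ⟨a1, a2⟩ | ⟨a1, a2⟩ | ⟨a1, a2⟩ <;> rw [a1] at hu <;> rw [a2] at hw
  · have : (p : ℤ) = 2 * (p * u - k) := by linarith
    omega
  · have hpz : (p : ℤ) ≠ 0 := Int.natCast_ne_zero.2 hp0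
    have : (p : ℤ) * (2 * w - 1) = 0 := by linarith
    rcases mul_eq_zero.1 this with h' | h'
    · exact hpz h'
    · omega
  · have hpz : (p : ℤ) ≠ 0 := Int.natCast_ne_zero.2 hp0
    have : (p : ℤ) * (2 * w - 1) = 0 := by linarith
    rcases mul_eq_zero.1 this with h' | h'
    · exact hpz h'
    · omega

theorem two_tp_mem_iff (hodd : Odd p) (k : ℕ) : 2 * tp L p k ∈ L.lattice ↔ p ∣ k := by
  have e : 2 * tp L p k = tp L p k + tp L p k := by ring
  rw [e, tp_add_mem_iff, ← two_mul]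
  exact (Nat.Coprime.dvd_mul_left (Nat.Coprime.symm (Nat.coprime_two_left.2 hodd)))

/-- the half periods of `L'` are congruent mod `Λ'` to those of `L` (`p` odd): `ω₁/(2p) = ω₁/2 - ((p-1)/2) ω₁/p`. -/
theorem hp_divFst_sub_mem (hodd : Odd p) (j : Fin 3) :
    hp (divFst L p) j - hp L j ∈ (divFst L p).lattice := by
  have hpc : (p : ℂ) ≠ 0 := Nat.cast_ne_zero.2 (NeZero.ne p)
  obtain ⟨m, hm⟩ := hodd
  refine mem_lattice.mpr ⟨-(m * SpadeLat_a j), 0, ?_⟩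
  rw [SpadeLat_hp, SpadeLat_hp]
  change ((-(m * SpadeLat_a j) : ℤ) : ℂ) * (L.ω₁ / p) + ((0 : ℤ) : ℂ) * L.ω₂ =
    ((SpadeLat_a j : ℂ) * (L.ω₁ / p) + (SpadeLat_b j : ℂ) * L.ω₂) / 2 -
      ((SpadeLat_a j : ℂ) * L.ω₁ + (SpadeLat_b j : ℂ) * L.ω₂) / 2
  have hpm : (p : ℂ) = 2 * m + 1 := by exact_mod_cast hm
  push_cast
  field_simp
  rw [hpm]
  ring

end Lattice

section Cubic

/-- `℘'(T j) = 0` (odd + periodic; no hypothesis on `L`). -/
theorem wp'_hp (j : Fin 3) : ℘'[L] (hp L j) = 0 := by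
  have h1 := L.derivWeierstrassP_sub_coe (hp L j) (⟨2 * hp L j, two_hp_mem L j⟩ : L.lattice)
  have h3 : hp L j - 2 * hp L j = - hp L j := by ring
  simp only [h3, derivWeierstrassP_neg] at h1
  linear_combination (-1 / 2 : ℂ) * h1

/-- so `e j` is a root of `4X³ - g₂X - g₃` (`derivWeierstrassP_sq`). -/
theorem cubic_ee (j : Fin 3) : 4 * ee L j ^ 3 - L.g₂ * ee L j - L.g₃ = 0 := by
  have h := L.derivWeierstrassP_sq (hp L j) (hp_notMem L j)
  rw [wp'_hp] at h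
  unfold ee
  linear_combination -h

/-- pure algebra: three distinct roots of `4X³ - g₂X - g₃`. -/
theorem cubic_factor {g₂ g₃ e₀ e₁ e₂ : ℂ} (h₀ : 4 * e₀ ^ 3 - g₂ * e₀ - g₃ = 0)
    (h₁ : 4 * e₁ ^ 3 - g₂ * e₁ - g₃ = 0) (h₂ : 4 * e₂ ^ 3 - g₂ * e₂ - g₃ = 0)
    (h01 : e₀ ≠ e₁) (h02 : e₀ ≠ e₂) (h12 : e₁ ≠ e₂) :
    e₀ + e₁ + e₂ = 0 ∧ (∀ X : ℂ, 4 * X ^ 3 - g₂ * X - g₃ = 4 * (X - e₀) * (X - e₁) * (X - e₂)) ∧
      g₂ ^ 3 - 27 * g₃ ^ 2 = 16 * ((e₀ - e₁) * (e₀ - e₂) * (e₁ - e₂)) ^ 2 := by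
  have a1 : g₂ = 4 * (e₀ ^ 2 + e₀ * e₁ + e₁ ^ 2) := by
    have : (e₀ - e₁) * (4 * (e₀ ^ 2 + e₀ * e₁ + e₁ ^ 2) - g₂) = 0 := by
      linear_combination h₀ - h₁
    have := (mul_eq_zero.1 this).resolve_left (sub_ne_zero.2 h01)
    linear_combination -this
  have a2 : g₂ = 4 * (e₀ ^ 2 + e₀ * e₂ + e₂ ^ 2) := by
    have : (e₀ - e₂) * (4 * (e₀ ^ 2 + e₀ * e₂ + e₂ ^ 2) - g₂) = 0 := by
      linear_combination h₀ - h₂
    have := (mul_eq_zero.1 this).resolve_left (sub_ne_zero.2 h02)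
    linear_combination -this
  have hsum : e₀ + e₁ + e₂ = 0 := by
    have : (e₁ - e₂) * (e₀ + e₁ + e₂) = 0 := by
      linear_combination (1 / 4 : ℂ) * (a2 - a1)
    exact (mul_eq_zero.1 this).resolve_left (sub_ne_zero.2 h12)
  have he₂ : e₂ = -e₀ - e₁ := by linear_combination hsum
  have a3 : g₃ = 4 * e₀ ^ 3 - g₂ * e₀ := by linear_combination -h₀
  refine ⟨hsum, fun X => ?_, ?_⟩
  · rw [a3, a1, he₂]
    ring
  · rw [a3, a1, he₂]
    ring

variable {L}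

/-- (`Unif.wp_eq_iff`, `hp_sub_notMem`, `hp i + hp j ≡ hp i - hp j`.) -/
theorem ee_injective {W : Affine ℂ} (h : Unif W L) : Function.Injective (ee L) := by
  intro i j hij
  by_contra hne
  rcases (h.wp_eq_iff (hp_notMem L i) (hp_notMem L j)).1 hij with h1 | h1
  · exact hp_sub_notMem L hne h1
  · apply hp_sub_notMem L hne
    have h2 := sub_mem h1 (two_hp_mem L j)
    have e1 : hp L i + hp L j - 2 * hp L j = hp L i - hp L j := by ring
    rwa [e1] at h2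

/-- translation by a half period, from `wp_add` with `w = T i` and `cubic_factor`:
`℘(z + T i) - e j = (e i - e j)(℘ z - e l)/(℘ z - e i)` for `{i,j,l} = {0,1,2}`, `z, z + T i ∉ Λ`. -/
theorem wp_add_hp {W : Affine ℂ} (h : Unif W L) {i j l : Fin 3} (hij : i ≠ j) (hil : i ≠ l)
    (hjl : j ≠ l) {z : ℂ} (hz : z ∉ L.lattice) (hzi : z + hp L i ∉ L.lattice) :
    ℘[L] (z + hp L i) - ee L j = (ee L i - ee L j) * (℘[L] z - ee L l) / (℘[L] z - ee L i) := by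
  have hinj := ee_injective h
  obtain ⟨hsum, hfac, -⟩ := cubic_factor (cubic_ee L i) (cubic_ee L j) (cubic_ee L l)
    (fun hh => hij (hinj hh)) (fun hh => hil (hinj hh)) (fun hh => hjl (hinj hh))
  have hne : ℘[L] z ≠ ℘[L] (hp L i) := by
    intro hh
    rcases (h.wp_eq_iff hz (hp_notMem L i)).1 hh with h1 | h1
    · apply hzi
      have h2 := add_mem h1 (two_hp_mem L i)
      have e1 : z - hp L i + 2 * hp L i = z + hp L i := by ring
      rwa [e1] at h2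
    · exact hzi h1
  have hne' : ℘[L] z - ee L i ≠ 0 := sub_ne_zero.2 hne
  have hsq : ℘'[L] z ^ 2 = 4 * (℘[L] z - ee L i) * (℘[L] z - ee L j) * (℘[L] z - ee L l) := by
    rw [L.derivWeierstrassP_sq z hz, hfac]
  rw [wp_add L hz (hp_notMem L i) hzi hne, addF, wp'_hp, sub_zero, div_pow, hsq]
  change -℘[L] z - ee L i + 4 * (℘[L] z - ee L i) * (℘[L] z - ee L j) * (℘[L] z - ee L l) /
    (℘[L] z - ee L i) ^ 2 / 4 - ee L j = _
  field_simp
  linear_combination (-(℘[L] z - ee L i)) * hsum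

end Cubic

section Heart

/-- an even function analytic at `0` satisfies `u z - u 0 = O(z²)`. -/
theorem even_bound {u : ℂ → ℂ} (hu : AnalyticAt ℂ u 0) (heven : ∀ z, u (-z) = u z) :
    ∃ C : ℝ, ∀ᶠ z in 𝓝[≠] (0 : ℂ), ‖(u z - u 0) / z ^ 2‖ ≤ C := by
  obtain ⟨s, hs, hso, h0s⟩ := eventually_nhds_iff.mp hu.eventually_analyticAt
  have hsn : s ∈ 𝓝 (0 : ℂ) := hso.mem_nhds h0s
  have hd : DifferentiableOn ℂ u s := fun z hz => (hs z hz).differentiableAt.differentiableWithinAt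
  have hd1 : DifferentiableOn ℂ (dslope u 0) s := (Complex.differentiableOn_dslope hsn).mpr hd
  have hd2 : DifferentiableOn ℂ (dslope (dslope u 0) 0) s :=
    (Complex.differentiableOn_dslope hsn).mpr hd1
  have hc : ContinuousAt (dslope (dslope u 0) 0) 0 := (hd2.differentiableAt hsn).continuousAt
  have hderiv : deriv u 0 = 0 := by
    have h1 : deriv (fun x => u (-x)) 0 = -deriv u (-0) := deriv_comp_neg u 0
    have h2 : (fun x => u (-x)) = u := funext heven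
    rw [h2, neg_zero] at h1
    have h3 : (2 : ℂ) * deriv u 0 = 0 := by linear_combination h1
    simpa using h3
  refine ⟨‖dslope (dslope u 0) 0 0‖ + 1, ?_⟩
  have hb := hc.norm.tendsto.eventually (Iic_mem_nhds (lt_add_one _))
  filter_upwards [hb.filter_mono nhdsWithin_le_nhds, self_mem_nhdsWithin] with z hz hz0
  have hz0' : z ≠ 0 := hz0
  have e : dslope (dslope u 0) 0 z = (u z - u 0) / z ^ 2 := by
    rw [dslope_of_ne _ hz0', slope_def_field, dslope_same, hderiv, dslope_of_ne _ hz0',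
      slope_def_field]
    field_simp
    ring
  rw [← e]
  exact hz

/-- `u z = ∏_{0<k<p} (℘_L(z + P k) - c)`. -/
def uu (c : ℂ) (z : ℂ) : ℂ := ∏ k ∈ Finset.Ico 1 p, (℘[L] (z + tp L p k) - c)

theorem uu_even (c z : ℂ) : uu L p c (-z) = uu L p c z := by
  unfold uu
  have hp0 : (p : ℂ) ≠ 0 := Nat.cast_ne_zero.mpr (NeZero.ne p)
  have hr := Finset.prod_Ico_reflect (fun k => ℘[L] (z + tp L p k) - c) 1 (n := p) (m := p)
    (Nat.le_succ p)
  simp only [Nat.add_sub_cancel_left, Nat.add_sub_cancel] at hr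
  rw [← hr]
  refine Finset.prod_congr rfl fun k hk => ?_
  have hk' := Finset.mem_Ico.mp hk
  have h1 : z + tp L p (p - k) = -(-z + tp L p k) + L.ω₁ := by
    unfold tp
    rw [Nat.cast_sub hk'.2.le]
    field_simp
    ring
  have h2 := L.weierstrassP_add_coe (-(-z + tp L p k)) ⟨L.ω₁, L.ω₁_mem_lattice⟩
  rw [h1, h2, L.weierstrassP_neg]

theorem uu_analyticAt (c : ℂ) : AnalyticAt ℂ (uu L p c) 0 := by
  unfold uu
  refine Finset.analyticAt_fun_prod _ fun k hk => ?_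
  have hk' := Finset.mem_Ico.mp hk
  have hnot : (0 : ℂ) + tp L p k ∉ L.lattice := by
    rw [zero_add, tp_mem_iff]
    exact Nat.not_dvd_of_pos_of_lt hk'.1 hk'.2
  have h1 : AnalyticAt ℂ ℘[L] ((0 : ℂ) + tp L p k) := L.analyticOnNhd_weierstrassP _ hnot
  have h2 : AnalyticAt ℂ (fun z : ℂ => z + tp L p k) 0 := analyticAt_id.add analyticAt_const
  exact (AnalyticAt.comp (f := fun z : ℂ => z + tp L p k) h1 h2).sub analyticAt_const

/-- `f z = ∏_{0≤k<p} (℘_L(z + P k) - c) - u(0) ℘_{L'}(z)`. -/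
def ff (c : ℂ) (z : ℂ) : ℂ :=
  ∏ k ∈ Finset.range p, (℘[L] (z + tp L p k) - c) - uu L p c 0 * ℘[divFst L p] z

/-- translation by `ω₁/p` permutes the factors cyclically, translation by `ω₂` fixes each factor; `ω₁/p`, `ω₂` generate `Λ'` (`Submodule.span_induction`). -/
theorem ff_periodic (c z : ℂ) {l : ℂ} (hl : l ∈ (divFst L p).lattice) :
    ff L p c (z + l) = ff L p c z := by
  have hp0 : (p : ℂ) ≠ 0 := Nat.cast_ne_zero.mpr (NeZero.ne p)
  -- the group of periods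
  let P : AddSubgroup ℂ :=
    { carrier := {l | ∀ z, ff L p c (z + l) = ff L p c z}
      zero_mem' := fun z => by rw [add_zero]
      add_mem' := fun {a b} ha hb z => by rw [← add_assoc, hb, ha]
      neg_mem' := fun {a} ha z => by
        have := ha (z + -a)
        rw [neg_add_cancel_right] at this
        exact this.symm }
  have h1 : L.ω₁ / p ∈ P := by
    intro z
    unfold ff
    have e1 := (divFst L p).weierstrassP_add_coe z ⟨L.ω₁ / p, (divFst L p).ω₁_mem_lattice⟩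
    have e1' : ℘[divFst L p] (z + L.ω₁ / p) = ℘[divFst L p] z := e1
    rw [e1']
    congr 1
    obtain ⟨m, hm⟩ : ∃ m, p = m + 1 := Nat.exists_eq_succ_of_ne_zero (NeZero.ne p)
    have e2 : ∀ k : ℕ, z + L.ω₁ / p + tp L p k = z + tp L p (k + 1) := by
      intro k
      unfold tp
      push_cast
      ring
    simp only [e2]
    have e3 : ℘[L] (z + tp L p p) = ℘[L] (z + tp L p 0) := by
      have := L.weierstrassP_add_coe z ⟨L.ω₁, L.ω₁_mem_lattice⟩
      have t1 : tp L p p = L.ω₁ := by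
        unfold tp
        field_simp
      have t0 : tp L p 0 = 0 := by
        unfold tp
        simp
      rw [t1, t0, add_zero]
      exact this
    have e4 : ∏ k ∈ Finset.range (m + 1), (℘[L] (z + tp L p (k + 1)) - c) =
        ∏ k ∈ Finset.range (m + 1), (℘[L] (z + tp L p k) - c) := by
      rw [Finset.prod_range_succ, Finset.prod_range_succ' (fun k => ℘[L] (z + tp L p k) - c), ← hm,
        e3]
    rw [← hm] at e4
    exact e4
  have h2 : L.ω₂ ∈ P := by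
    intro z
    unfold ff
    have e1 := (divFst L p).weierstrassP_add_coe z ⟨L.ω₂, (divFst L p).ω₂_mem_lattice⟩
    have e1' : ℘[divFst L p] (z + L.ω₂) = ℘[divFst L p] z := e1
    rw [e1']
    congr 1
    refine Finset.prod_congr rfl fun k _ => ?_
    have := L.weierstrassP_add_coe (z + tp L p k) ⟨L.ω₂, L.ω₂_mem_lattice⟩
    have e2 : z + L.ω₂ + tp L p k = z + tp L p k + L.ω₂ := by ring
    rw [e2]
    exact congrArg (· - c) this
  have hle : (divFst L p).lattice ≤ AddSubgroup.toIntSubmodule P := by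
    refine Submodule.span_le.mpr ?_
    rintro x (rfl | rfl)
    · exact h1
    · exact h2
  exact hle hl z

theorem ff_differentiableOn (c : ℂ) :
    DifferentiableOn ℂ (ff L p c) ((divFst L p).lattice : Set ℂ)ᶜ := by
  intro z hz
  refine DifferentiableAt.differentiableWithinAt ?_
  unfold ff
  have hz' : z ∉ (divFst L p).lattice := hz
  refine DifferentiableAt.sub ?_ ?_
  · refine DifferentiableAt.fun_finsetProd fun k _ => ?_
    have hnot : z + tp L p k ∉ L.lattice := by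
      intro h
      apply hz'
      have h1 := (divFst L p).lattice.sub_mem (lattice_le_divFst L p h) (tp_mem_divFst L p k)
      rwa [add_sub_cancel_right] at h1
    have h1 : DifferentiableAt ℂ ℘[L] (z + tp L p k) :=
      (L.analyticOnNhd_weierstrassP _ hnot).differentiableAt
    have h2 : DifferentiableAt ℂ (fun z : ℂ => z + tp L p k) z := by fun_prop
    exact (DifferentiableAt.comp (f := fun z : ℂ => z + tp L p k) z h1 h2).sub_const c
  · exact (((divFst L p).analyticOnNhd_weierstrassP z hz').differentiableAt).const_mul _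

/-- `f = (u - u 0)/z² + (ρ - c) u - u(0) ρ'` with `ρ = ℘_L - z⁻²`, `ρ' = ℘_{L'} - z⁻²` (`tendsto_wp_sub` for `L` and `L'`, `even_bound`). -/
theorem ff_bounded (c : ℂ) : ∃ C : ℝ, ∀ᶠ z in 𝓝[≠] (0 : ℂ), ‖ff L p c z‖ ≤ C := by
  obtain ⟨C₁, hC₁⟩ := even_bound (uu_analyticAt L p c) (uu_even L p c)
  have h01 : Set.Iic (1 : ℝ) ∈ 𝓝 ‖(0 : ℂ)‖ := Iic_mem_nhds (by simp)
  have hρ := (tendsto_wp_sub L).norm.eventually h01
  have hρ' := (tendsto_wp_sub (divFst L p)).norm.eventually h01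
  have hu := ((uu_analyticAt L p c).continuousAt.norm.tendsto.eventually
    (Iic_mem_nhds (lt_add_one _))).filter_mono (nhdsWithin_le_nhds (s := {(0 : ℂ)}ᶜ))
  refine ⟨C₁ + (1 + ‖c‖) * (‖uu L p c 0‖ + 1) + ‖uu L p c 0‖ * 1, ?_⟩
  filter_upwards [hC₁, hρ, hρ', hu, self_mem_nhdsWithin] with z h1 h2 h3 h4 hz0
  have hz0' : z ≠ 0 := hz0
  have hsplit : ∏ k ∈ Finset.range p, (℘[L] (z + tp L p k) - c) = (℘[L] z - c) * uu L p c z := by
    unfold uu
    rw [Finset.range_eq_Ico, Finset.prod_eq_prod_Ico_succ_bot (Nat.pos_of_ne_zero (NeZero.ne p))]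
    have t0 : tp L p 0 = 0 := by
      unfold tp
      simp
    rw [t0, add_zero]
  have e : ff L p c z = (uu L p c z - uu L p c 0) / z ^ 2 +
      ((℘[L] z - 1 / z ^ 2) - c) * uu L p c z - uu L p c 0 * (℘[divFst L p] z - 1 / z ^ 2) := by
    unfold ff
    rw [hsplit]
    field_simp
    ring
  rw [e]
  have h2' : ‖℘[L] z - 1 / z ^ 2‖ ≤ 1 := h2
  have h3' : ‖℘[divFst L p] z - 1 / z ^ 2‖ ≤ 1 := h3
  have h4' : ‖uu L p c z‖ ≤ ‖uu L p c 0‖ + 1 := h4
  refine (norm_sub_le _ _).trans (add_le_add ((norm_add_le _ _).trans (add_le_add h1 ?_)) ?_)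
  · rw [norm_mul]
    refine mul_le_mul ((norm_sub_le _ _).trans (add_le_add h2' le_rfl)) h4' (norm_nonneg _)
      (by positivity)
  · rw [norm_mul]
    exact mul_le_mul_of_nonneg_left h3' (norm_nonneg _)

/-- **(HEART)**: `exists_const_of_bounded` for `L'` applied to `ff L p (e j)`; evaluate at `T j` (the factor `k = 0` vanishes). -/
theorem heart (hodd : Odd p) (j : Fin 3) {z : ℂ} (hz : z ∉ (divFst L p).lattice) :
    (℘[divFst L p] z - ℘[divFst L p] (hp L j)) * uu L p (ee L j) 0 =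
      ∏ k ∈ Finset.range p, (℘[L] (z + tp L p k) - ee L j) := by
  obtain ⟨c₀, hc₀⟩ := exists_const_of_bounded (divFst L p) (ff_differentiableOn L p (ee L j))
    (fun z l hl => ff_periodic L p (ee L j) z hl) (ff_bounded L p (ee L j))
  have h1 := hc₀ z hz
  have h2 := hc₀ (hp L j) (hp_notMem_divFst L p hodd j)
  have h3 : ∏ k ∈ Finset.range p, (℘[L] (hp L j + tp L p k) - ee L j) = 0 := by
    refine Finset.prod_eq_zero (Finset.mem_range.mpr (Nat.pos_of_ne_zero (NeZero.ne p))) ?_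
    have t0 : tp L p 0 = 0 := by
      unfold tp
      simp
    rw [t0, add_zero, ee, sub_self]
  unfold ff at h1 h2
  rw [h3] at h2
  linear_combination h2 - h1

end Heart

section Spade

variable {L}

theorem SpadeMain_tp_notMem {k : ℕ} (hk : k ∈ Finset.Ico 1 p) : tp L p k ∉ L.lattice := by
  rw [tp_mem_iff]
  rw [Finset.mem_Ico] at hk
  exact Nat.not_dvd_of_pos_of_lt hk.1 hk.2

theorem SpadeMain_factor_ne {W : Affine ℂ} (h : Unif W L) (hodd : Odd p) (m : Fin 3) {k : ℕ}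
    (hk : k ∈ Finset.Ico 1 p) : ℘[L] (tp L p k) - ee L m ≠ 0 := by
  intro h0
  have h1 : ℘[L] (tp L p k) = ℘[L] (hp L m) := sub_eq_zero.1 h0
  rcases (h.wp_eq_iff (SpadeMain_tp_notMem p hk) (hp_notMem L m)).1 h1 with h2 | h2
  · apply hp_add_tp_notMem L p hodd m k
    have h3 := L.lattice.add_mem h2 (two_hp_mem L m)
    have h4 : hp L m + tp L p k = tp L p k - hp L m + 2 * hp L m := by ring
    rw [h4]
    exact h3
  · apply hp_add_tp_notMem L p hodd m k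
    rwa [add_comm]

/-- `A m = ∏_{0<k<p} (℘(P k) - e m) ≠ 0`. -/
theorem uu_zero_ne_zero {W : Affine ℂ} (h : Unif W L) (hodd : Odd p) (m : Fin 3) :
    uu L p (ee L m) 0 ≠ 0 := by
  unfold uu
  rw [Finset.prod_ne_zero_iff]
  intro k hk
  rw [zero_add]
  exact SpadeMain_factor_ne p h hodd m hk

/-- `e' i - e' j = (e i - e j)^p A_l / (A_i A_j)`: `heart` at `z = T i`, `wp_add_hp` for `z = P k`. -/
theorem ee'_sub {W : Affine ℂ} (h : Unif W L) (hodd : Odd p) {i j l : Fin 3} (hij : i ≠ j)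
    (hil : i ≠ l) (hjl : j ≠ l) :
    (℘[divFst L p] (hp L i) - ℘[divFst L p] (hp L j)) * (uu L p (ee L i) 0 * uu L p (ee L j) 0) =
      (ee L i - ee L j) ^ p * uu L p (ee L l) 0 := by
  have hH := heart L p hodd j (hp_notMem_divFst L p hodd i)
  have hp0 : 0 < p := Nat.pos_of_ne_zero (NeZero.ne p)
  rw [Finset.range_eq_Ico, Finset.prod_eq_prod_Ico_succ_bot hp0] at hH
  have ht0 : tp L p 0 = 0 := by simp [tp]
  rw [ht0, add_zero, zero_add] at hH
  have hfac : ∀ k ∈ Finset.Ico 1 p,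
      (℘[L] (hp L i + tp L p k) - ee L j) * (℘[L] (0 + tp L p k) - ee L i) =
        (ee L i - ee L j) * (℘[L] (0 + tp L p k) - ee L l) := by
    intro k hk
    have hne := SpadeMain_factor_ne p h hodd i hk
    rw [zero_add, add_comm (hp L i), wp_add_hp h hij hil hjl (SpadeMain_tp_notMem p hk)
      (by rw [add_comm]; exact hp_add_tp_notMem L p hodd i k)]
    field_simp
  have hprod : (∏ k ∈ Finset.Ico 1 p, (℘[L] (hp L i + tp L p k) - ee L j)) * uu L p (ee L i) 0 =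
      (ee L i - ee L j) ^ (p - 1) * uu L p (ee L l) 0 := by
    unfold uu
    rw [← Finset.prod_mul_distrib, Finset.prod_congr rfl hfac, Finset.prod_mul_distrib,
      Finset.prod_const, Nat.card_Ico]
  have hpow : (ee L i - ee L j) ^ p = (ee L i - ee L j) * (ee L i - ee L j) ^ (p - 1) := by
    rw [← pow_succ']
    congr 1
    omega
  have hee : ℘[L] (hp L i) = ee L i := rfl
  rw [hee] at hH
  calc (℘[divFst L p] (hp L i) - ℘[divFst L p] (hp L j)) *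
        (uu L p (ee L i) 0 * uu L p (ee L j) 0)
      = ((℘[divFst L p] (hp L i) - ℘[divFst L p] (hp L j)) * uu L p (ee L j) 0) *
          uu L p (ee L i) 0 := by ring
    _ = (ee L i - ee L j) *
          ((∏ k ∈ Finset.Ico 1 p, (℘[L] (hp L i + tp L p k) - ee L j)) * uu L p (ee L i) 0) := by
        rw [hH]; ring
    _ = (ee L i - ee L j) ^ p * uu L p (ee L l) 0 := by
        rw [hprod, hpow]; ring

/-- `∏ ℘'(P k)² = 4^(p-1) A₀ A₁ A₂` (`derivWeierstrassP_sq`, `cubic_factor`). -/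
theorem prod_wp'_sq {W : Affine ℂ} (h : Unif W L) :
    (∏ k ∈ Finset.Ico 1 p, ℘'[L] (tp L p k)) ^ 2 =
      4 ^ (p - 1) * (uu L p (ee L 0) 0 * uu L p (ee L 1) 0 * uu L p (ee L 2) 0) := by
  have hinj := ee_injective h
  have h01 : ee L 0 ≠ ee L 1 := fun e => absurd (hinj e) (by decide)
  have h02 : ee L 0 ≠ ee L 2 := fun e => absurd (hinj e) (by decide)
  have h12 : ee L 1 ≠ ee L 2 := fun e => absurd (hinj e) (by decide)
  obtain ⟨-, hX, -⟩ := cubic_factor (cubic_ee L 0) (cubic_ee L 1) (cubic_ee L 2) h01 h02 h12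
  have hfac : ∀ k ∈ Finset.Ico 1 p, ℘'[L] (tp L p k) ^ 2 =
      4 * ((℘[L] (0 + tp L p k) - ee L 0) * (℘[L] (0 + tp L p k) - ee L 1) *
        (℘[L] (0 + tp L p k) - ee L 2)) := by
    intro k hk
    rw [zero_add, L.derivWeierstrassP_sq _ (SpadeMain_tp_notMem p hk), hX]
    ring
  unfold uu
  rw [← Finset.prod_pow, Finset.prod_congr rfl hfac, Finset.prod_mul_distrib,
    Finset.prod_mul_distrib, Finset.prod_mul_distrib, Finset.prod_const, Nat.card_Ico]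

/-- `ee (divFst L p) j = ℘_{L'}(T j)` (`hp_divFst_sub_mem`, periodicity). -/
theorem ee_divFst (hodd : Odd p) (j : Fin 3) : ee (divFst L p) j = ℘[divFst L p] (hp L j) := by
  have hmem := hp_divFst_sub_mem L p hodd j
  have h1 : hp (divFst L p) j = hp L j + (hp (divFst L p) j - hp L j) := by ring
  unfold ee
  rw [h1]
  exact (divFst L p).weierstrassP_add_coe (hp L j) ⟨_, hmem⟩

/-- **SPADE.**  `cubic_factor` for `L` (`ee_injective`) and for `L'` (the `e' j` are distinct by `ee'_sub`), then algebra: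
`Δ' = 16 (∏ (e'i - e'j))² = 16 (∏(e i - e j))^{2p}/(A₀A₁A₂)² = 16 (Δ/16)^p 16^(p-1) / ∏ ℘'(P k)⁴`. -/
theorem spade {W : Affine ℂ} (h : Unif W L) (hodd : Odd p) :
    disc (divFst L p) * (∏ k ∈ Finset.Ico 1 p, ℘'[L] (tp L p k)) ^ 4 = disc L ^ p := by
  have hinj := ee_injective h
  have h01 : ee L 0 ≠ ee L 1 := fun e => absurd (hinj e) (by decide)
  have h02 : ee L 0 ≠ ee L 2 := fun e => absurd (hinj e) (by decide)
  have h12 : ee L 1 ≠ ee L 2 := fun e => absurd (hinj e) (by decide)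
  obtain ⟨-, -, hD⟩ := cubic_factor (cubic_ee L 0) (cubic_ee L 1) (cubic_ee L 2) h01 h02 h12
  have hA0 := uu_zero_ne_zero p h hodd 0
  have hA1 := uu_zero_ne_zero p h hodd 1
  have hA2 := uu_zero_ne_zero p h hodd 2
  have e01 := ee'_sub p h hodd (i := 0) (j := 1) (l := 2) (by decide) (by decide) (by decide)
  have e02 := ee'_sub p h hodd (i := 0) (j := 2) (l := 1) (by decide) (by decide) (by decide)
  have e12 := ee'_sub p h hodd (i := 1) (j := 2) (l := 0) (by decide) (by decide) (by decide)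
  rw [← ee_divFst p hodd, ← ee_divFst p hodd] at e01 e02 e12
  have hne : ∀ {x y a c d u : ℂ}, c ≠ d → u ≠ 0 → (x - y) * a = (c - d) ^ p * u → x ≠ y := by
    intro x y a c d u hcd hu he hxy
    rw [hxy, sub_self, zero_mul] at he
    exact mul_ne_zero (pow_ne_zero p (sub_ne_zero.2 hcd)) hu he.symm
  have h01' := hne h01 hA2 e01
  have h02' := hne h02 hA1 e02
  have h12' := hne h12 hA0 e12
  obtain ⟨-, -, hD'⟩ := cubic_factor (cubic_ee (divFst L p) 0) (cubic_ee (divFst L p) 1)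
    (cubic_ee (divFst L p) 2) h01' h02' h12'
  have hP := prod_wp'_sq p h
  have hp0 : 0 < p := Nat.pos_of_ne_zero (NeZero.ne p)
  unfold disc
  rw [hD, hD']
  generalize ee (divFst L p) 0 = f0 at *
  generalize ee (divFst L p) 1 = f1 at *
  generalize ee (divFst L p) 2 = f2 at *
  generalize ee L 0 = g0 at *
  generalize ee L 1 = g1 at *
  generalize ee L 2 = g2 at *
  generalize uu L p g0 0 = A0 at *
  generalize uu L p g1 0 = A1 at *
  generalize uu L p g2 0 = A2 at *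
  generalize (∏ k ∈ Finset.Ico 1 p, ℘'[L] (tp L p k)) = P at *
  have hprod : ((f0 - f1) * (f0 - f2) * (f1 - f2)) * (A0 * A1 * A2) =
      ((g0 - g1) * (g0 - g2) * (g1 - g2)) ^ p := by
    have hA : A0 * A1 * A2 ≠ 0 := mul_ne_zero (mul_ne_zero hA0 hA1) hA2
    apply mul_right_cancel₀ hA
    calc ((f0 - f1) * (f0 - f2) * (f1 - f2)) * (A0 * A1 * A2) * (A0 * A1 * A2)
        = ((f0 - f1) * (A0 * A1)) * ((f0 - f2) * (A0 * A2)) * ((f1 - f2) * (A1 * A2)) := by ring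
      _ = ((g0 - g1) * (g0 - g2) * (g1 - g2)) ^ p * (A0 * A1 * A2) := by
          rw [e01, e02, e12, mul_pow, mul_pow]; ring
  have h16 : (16 : ℂ) ^ p = 16 * (4 ^ (p - 1)) ^ 2 := by
    obtain ⟨q, rfl⟩ : ∃ q, p = q + 1 := ⟨p - 1, by omega⟩
    rw [Nat.add_sub_cancel, ← pow_mul, mul_comm q 2, pow_mul, pow_succ']
    norm_num
  calc 16 * ((f0 - f1) * (f0 - f2) * (f1 - f2)) ^ 2 * P ^ 4
      = 16 * ((f0 - f1) * (f0 - f2) * (f1 - f2)) ^ 2 * (P ^ 2) ^ 2 := by ring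
    _ = 16 * (4 ^ (p - 1)) ^ 2 * (((f0 - f1) * (f0 - f2) * (f1 - f2)) * (A0 * A1 * A2)) ^ 2 := by
        rw [hP]; ring
    _ = (16 * ((g0 - g1) * (g0 - g2) * (g1 - g2)) ^ 2) ^ p := by
        rw [hprod, ← h16, mul_pow 16, ← pow_mul, ← pow_mul, mul_comm p 2]

end Spade

end

end Fermat.Agent.S15.A.Wp
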